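import Mathlib
import Fermat.Prelude.Def_EllipticCurve_FrobeniusTrace

/-!
Existence of Frobenius elements in the absolute Galois group of the rationals, in the
language of the prelude (`ValuationSubring.LiesOverPrime`, `ValuationSubring.IsFrobeniusAt`).

Main result: `Fermat.Agent.FrobLib.exists_isFrobeniusAt`.
-/

set_option linter.style.haveILetI false

namespace Fermat.Agent.FrobLib

open Polynomial
open scoped Pointwise

theorem aeval_mem_span_pow {R K : Type*} [CommRing R] [Field K] [Algebra R K] (x : K) (r : R[X])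
    (B : ℕ) (hr : r.natDegree < B) :
    aeval x r ∈ Submodule.span R (Set.range (fun k : Fin B => x ^ (k : ℕ))) := by
  rw [aeval_eq_sum_range]
  refine Submodule.sum_mem _ fun j hj => ?_
  refine Submodule.smul_mem _ _ (Submodule.subset_span ?_)
  exact ⟨⟨j, lt_of_lt_of_le (Finset.mem_range.mp hj) hr⟩, rfl⟩

theorem natDegree_mul_X_pow_le' {R : Type*} [CommRing R] (p : R[X]) (k : ℕ) :
    (p * X ^ k).natDegree ≤ p.natDegree + k :=
  natDegree_mul_le.trans (Nat.add_le_add_left (natDegree_X_pow_le _) _)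

theorem isIntegral_of_two_sided {R K : Type*} [CommRing R] [Field K] [Algebra R K] (x y : K)
    (p q : R[X]) (m : ℕ) (hp : y = aeval x p) (hq : y * x ^ m = aeval x q)
    (hqdeg : q.natDegree ≤ m) : IsIntegral R y := by
  classical
  set d := p.natDegree + 1 with hd
  set M : Submodule R K := Submodule.span R (Set.range (fun k : Fin (m + d) => x ^ (k : ℕ))) with hM
  have h1 : (1 : K) ∈ M := by
    refine Submodule.subset_span ⟨⟨0, by omega⟩, ?_⟩
    simp
  refine isIntegral_of_smul_mem_submodule M ?_ ?_ y ?_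
  · intro hbot
    rw [hbot] at h1
    exact one_ne_zero ((Submodule.mem_bot R).mp h1)
  · exact Submodule.fg_span (Set.finite_range _)
  · intro n hn
    refine Submodule.span_induction (p := fun n _ => y • n ∈ M) ?_ ?_ ?_ ?_ hn
    · rintro _ ⟨k, rfl⟩
      rw [smul_eq_mul]
      by_cases hk : (k : ℕ) < m
      · have : y * x ^ (k : ℕ) = aeval x (p * X ^ (k : ℕ)) := by
          rw [map_mul, map_pow, aeval_X, hp]
        rw [this]
        refine aeval_mem_span_pow x _ _ ?_
        have := natDegree_mul_X_pow_le' p (k : ℕ)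
        omega
      · have hk' : m ≤ (k : ℕ) := Nat.le_of_not_lt hk
        have : y * x ^ (k : ℕ) = aeval x (q * X ^ ((k : ℕ) - m)) := by
          rw [map_mul, map_pow, aeval_X, ← hq, mul_assoc, ← pow_add, Nat.add_sub_cancel' hk']
        rw [this]
        refine aeval_mem_span_pow x _ _ ?_
        have := natDegree_mul_X_pow_le' q ((k : ℕ) - m)
        have := k.2
        omega
    · simp
    · intro a b _ _ ha hb
      rw [smul_add]; exact M.add_mem ha hb
    · intro a b _ hb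
      rw [smul_comm]; exact M.smul_mem a hb

/-- Decomposition `g = divX^[i] g * X^i + r` with `r` of degree at most `i`. -/
theorem exists_lower_part {R : Type*} [CommRing R] (g : R[X]) (i : ℕ) :
    ∃ r : R[X], r.natDegree ≤ i ∧ g = divX^[i] g * X ^ i + r := by
  induction i with
  | zero => exact ⟨0, by simp, by simp⟩
  | succ i ih =>
    obtain ⟨r, hr, hg⟩ := ih
    refine ⟨C ((divX^[i] g).coeff 0) * X ^ i + r, ?_, ?_⟩
    · refine (natDegree_add_le _ _).trans (max_le ?_ (hr.trans (Nat.le_succ i)))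
      exact (natDegree_C_mul_X_pow_le _ _).trans (Nat.le_succ i)
    · rw [Function.iterate_succ_apply']
      conv_lhs => rw [hg, ← divX_mul_X_add (divX^[i] g)]
      ring

theorem coeff_iterate_divX {R : Type*} [CommRing R] (g : R[X]) (i n : ℕ) :
    (divX^[i] g).coeff n = g.coeff (n + i) := by
  induction i generalizing n with
  | zero => simp
  | succ i ih =>
    rw [Function.iterate_succ_apply', coeff_divX, ih]
    congr 1; omega

/-- Horner partial sums of a polynomial relation are integral. -/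
theorem isIntegral_horner {R K : Type*} [CommRing R] [Field K] [Algebra R K] (x : K) (g : R[X])
    (hg : aeval x g = 0) (i : ℕ) : IsIntegral R (aeval x (divX^[i] g)) := by
  obtain ⟨r, hr, hgr⟩ := exists_lower_part g i
  refine isIntegral_of_two_sided x _ (divX^[i] g) (-r) i rfl ?_ (by rwa [natDegree_neg])
  have h := congrArg (aeval x) hgr
  rw [hg, map_add, map_mul, map_pow, aeval_X] at h
  rw [map_neg]
  linear_combination -h

theorem horner_rec {R K : Type*} [CommRing R] [Field K] [Algebra R K] (x : K) (g : R[X]) (i : ℕ) :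
    aeval x (divX^[i] g) = x * aeval x (divX^[i + 1] g) + algebraMap R K (g.coeff i) := by
  have h := congrArg (aeval x) (divX_mul_X_add (divX^[i] g))
  rw [map_add, map_mul, aeval_X, aeval_C, coeff_iterate_divX, zero_add,
    ← Function.iterate_succ_apply' divX i g] at h
  rw [← h]; ring


section Loc

variable {K : Type*} [Field K]

/-- The subring `B_Q` of `K`, for `B` the integral closure of `ℤ` in `K`. -/
def locSubring (Q : Ideal (integralClosure ℤ K)) [hQ : Q.IsPrime] : Subring K where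
  carrier := {x | ∃ b s : integralClosure ℤ K, s ∉ Q ∧ x * (s : K) = (b : K)}
  mul_mem' := by
    rintro x y ⟨b, s, hs, h⟩ ⟨b', s', hs', h'⟩
    refine ⟨b * b', s * s', fun hmem => ?_, ?_⟩
    · rcases hQ.mem_or_mem hmem with h1 | h1
      · exact hs h1
      · exact hs' h1
    · push_cast
      rw [← h, ← h']; ring
  one_mem' := ⟨1, 1, fun h => hQ.ne_top ((Ideal.eq_top_iff_one Q).mpr h), by simp⟩
  add_mem' := by
    rintro x y ⟨b, s, hs, h⟩ ⟨b', s', hs', h'⟩
    refine ⟨b * s' + b' * s, s * s', fun hmem => ?_, ?_⟩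
    · rcases hQ.mem_or_mem hmem with h1 | h1
      · exact hs h1
      · exact hs' h1
    · push_cast
      rw [← h, ← h']; ring
  zero_mem' := ⟨0, 1, fun h => hQ.ne_top ((Ideal.eq_top_iff_one Q).mpr h), by simp⟩
  neg_mem' := by
    rintro x ⟨b, s, hs, h⟩
    exact ⟨-b, s, hs, by push_cast; rw [← h]; ring⟩

theorem mem_locSubring {Q : Ideal (integralClosure ℤ K)} [Q.IsPrime] {x : K} :
    x ∈ locSubring Q ↔ ∃ b s : integralClosure ℤ K, s ∉ Q ∧ x * (s : K) = (b : K) := Iff.rfl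

theorem mem_or_inv_mem_locSubring [CharZero K] (Q : Ideal (integralClosure ℤ K)) [hQ : Q.IsPrime]
    (ℓ : ℕ) (hℓ : ℓ.Prime)
    (hQℓ : ∀ n : ℤ, ((n : integralClosure ℤ K) ∈ Q) → (ℓ : ℤ) ∣ n)
    (x : K) (hx : IsAlgebraic ℤ x) : x ∈ locSubring Q ∨ x⁻¹ ∈ locSubring Q := by
  by_cases hx0 : x = 0
  · left; rw [hx0]; exact (locSubring Q).zero_mem
  obtain ⟨f, hf0, hfx⟩ := hx
  have hg : aeval x f.primPart = 0 := aeval_primPart_eq_zero hf0 hfx
  have hprim : f.primPart.IsPrimitive := f.isPrimitive_primPart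
  set g := f.primPart with hgdef
  have hs_int : ∀ i, IsIntegral ℤ (aeval x (divX^[i] g)) := isIntegral_horner x g hg
  let S : ℕ → integralClosure ℤ K := fun i => ⟨aeval x (divX^[i] g), hs_int i⟩
  let T : ℕ → integralClosure ℤ K := fun i => S i - ((g.coeff i : ℤ) : integralClosure ℤ K)
  have hT : ∀ i, ((T i : integralClosure ℤ K) : K) = x * ((S (i + 1) : integralClosure ℤ K) : K) := by
    intro i
    have h := horner_rec x g i
    rw [eq_intCast] at h
    simp only [T, S]
    push_cast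
    rw [h]; ring
  by_cases h1 : ∃ i, S (i + 1) ∉ Q
  · obtain ⟨i, hi⟩ := h1
    left
    exact ⟨T i, S (i + 1), hi, (hT i).symm⟩
  · simp only [not_exists, not_not] at h1
    by_cases h2 : ∃ i, T i ∉ Q
    · obtain ⟨i, hi⟩ := h2
      right
      refine ⟨S (i + 1), T i, hi, ?_⟩
      rw [hT i, ← mul_assoc, inv_mul_cancel₀ hx0, one_mul]
    · simp only [not_exists, not_not] at h2
      exfalso
      have hS0 : S 0 = 0 := by
        apply Subtype.ext
        simp only [S, Function.iterate_zero, id_eq]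
        exact hg
      have hS : ∀ i, S i ∈ Q := by
        intro i
        cases i with
        | zero => rw [hS0]; exact Q.zero_mem
        | succ i => exact h1 i
      have hcoeff : ∀ i, (ℓ : ℤ) ∣ g.coeff i := by
        intro i
        apply hQℓ
        have : ((g.coeff i : ℤ) : integralClosure ℤ K) = S i - T i := by
          simp only [T]; ring
        rw [this]
        exact Q.sub_mem (hS i) (h2 i)
      have hdvd : C (ℓ : ℤ) ∣ g := (C_dvd_iff_dvd_coeff _ _).mpr hcoeff
      have hunit : IsUnit (ℓ : ℤ) := hprim _ hdvd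
      rw [Int.isUnit_iff] at hunit
      have := hℓ.two_le
      omega


/-- The valuation subring `B_Q` of `K`. -/
def locValuationSubring [CharZero K] (Q : Ideal (integralClosure ℤ K)) [hQ : Q.IsPrime]
    (ℓ : ℕ) (hℓ : ℓ.Prime)
    (hQℓ : ∀ n : ℤ, ((n : integralClosure ℤ K) ∈ Q) → (ℓ : ℤ) ∣ n)
    (halg : ∀ x : K, IsAlgebraic ℤ x) : ValuationSubring K :=
  { locSubring Q with
    mem_or_inv_mem' := fun x => mem_or_inv_mem_locSubring Q ℓ hℓ hQℓ x (halg x) }

theorem mem_locValuationSubring [CharZero K] {Q : Ideal (integralClosure ℤ K)} [hQ : Q.IsPrime]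
    {ℓ : ℕ} {hℓ : ℓ.Prime}
    {hQℓ : ∀ n : ℤ, ((n : integralClosure ℤ K) ∈ Q) → (ℓ : ℤ) ∣ n}
    {halg : ∀ x : K, IsAlgebraic ℤ x} {x : K} :
    x ∈ locValuationSubring Q ℓ hℓ hQℓ halg ↔
      ∃ b s : integralClosure ℤ K, s ∉ Q ∧ x * (s : K) = (b : K) := Iff.rfl

theorem mem_nonunits_locValuationSubring [CharZero K] {Q : Ideal (integralClosure ℤ K)}
    [hQ : Q.IsPrime] {ℓ : ℕ} {hℓ : ℓ.Prime}
    {hQℓ : ∀ n : ℤ, ((n : integralClosure ℤ K) ∈ Q) → (ℓ : ℤ) ∣ n}
    {halg : ∀ x : K, IsAlgebraic ℤ x} {x : K}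
    (n d : integralClosure ℤ K) (hn : n ∈ Q) (hd : d ∉ Q) (h : x * (d : K) = (n : K)) :
    x ∈ (locValuationSubring Q ℓ hℓ hQℓ halg).nonunits := by
  rw [ValuationSubring.mem_nonunits_iff_or]
  by_cases hx0 : x = 0
  · exact Or.inl hx0
  right
  rintro ⟨b', s', hs', h'⟩
  have hprod : d * s' = n * b' := by
    apply Subtype.ext
    push_cast
    rw [← h, ← h']
    field_simp
  have hmem : d * s' ∈ Q := by rw [hprod]; exact Q.mul_mem_right _ hn
  rcases hQ.mem_or_mem hmem with h1 | h1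
  · exact hd h1
  · exact hs' h1

end Loc

section Global

variable {K : Type*} [Field K] [CharZero K] [IsAlgClosure ℚ K]

theorem isGalois_of_isAlgClosure : IsGalois ℚ K := IsAlgClosure.isGalois ℚ K

theorem isIntegral_of_isAlgClosure : Algebra.IsIntegral ℚ K :=
  haveI : Algebra.IsAlgebraic ℚ K := IsAlgClosure.isAlgebraic
  Algebra.IsAlgebraic.isIntegral (K := ℚ) (A := K)

theorem isAlgebraic_int_of_isAlgClosure (x : K) : IsAlgebraic ℤ x := by
  have := isIntegral_of_isAlgClosure (K := K)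
  have h : IsAlgebraic ℚ x := (Algebra.IsIntegral.isIntegral (R := ℚ) x).isAlgebraic
  exact (IsFractionRing.isAlgebraic_iff ℤ ℚ K).mpr h

theorem isInvariant_integralClosure :
    Algebra.IsInvariant ℤ (integralClosure ℤ K) (K ≃ₐ[ℚ] K) := by
  haveI := isGalois_of_isAlgClosure (K := K)
  refine ⟨fun b hb => ?_⟩
  have hfix : (b : K) ∈ IntermediateField.fixedField (⊤ : Subgroup (K ≃ₐ[ℚ] K)) := by
    rintro ⟨g, -⟩
    have := congrArg (fun z : integralClosure ℤ K => (z : K)) (hb g)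
    simpa using this
  rw [InfiniteGalois.fixedField_bot, IntermediateField.mem_bot] at hfix
  obtain ⟨r, hr⟩ := hfix
  have hint : IsIntegral ℤ (algebraMap ℚ K r) := by rw [hr]; exact b.2
  have hintQ : IsIntegral ℤ r :=
    (isIntegral_algebraMap_iff (algebraMap ℚ K).injective).mp hint
  obtain ⟨m, hm⟩ := IsIntegrallyClosed.isIntegral_iff.mp hintQ
  refine ⟨m, Subtype.ext ?_⟩
  rw [← hr, ← hm]
  simp

theorem continuousSMul_integralClosure :
    letI : TopologicalSpace (integralClosure ℤ K) := ⊥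
    ContinuousSMul (K ≃ₐ[ℚ] K) (integralClosure ℤ K) := by
  letI : TopologicalSpace (integralClosure ℤ K) := ⊥
  haveI : DiscreteTopology (integralClosure ℤ K) := ⟨rfl⟩
  haveI := isIntegral_of_isAlgClosure (K := K)
  rw [continuousSMul_iff_stabilizer_isOpen]
  intro b
  have h : (MulAction.stabilizer (K ≃ₐ[ℚ] K) b : Set (K ≃ₐ[ℚ] K)) =
      MulAction.stabilizer (K ≃ₐ[ℚ] K) (b : K) := by
    ext g
    simp only [SetLike.mem_coe, MulAction.mem_stabilizer_iff]
    constructor
    · intro h; exact congrArg (fun z : integralClosure ℤ K => (z : K)) h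
    · intro h; exact Subtype.ext h
  rw [h]
  exact stabilizer_isOpen_of_isIntegral (b : K)

omit [CharZero K] [IsAlgClosure ℚ K] in
/-- The Frobenius `y ↦ y ^ ℓ` as an algebra automorphism of `B ⧸ Q` over `ℤ ⧸ P`. -/
theorem exists_frobenius_algEquiv (ℓ : ℕ) (hℓ : ℓ.Prime) (P : Ideal ℤ)
    (Q : Ideal (integralClosure ℤ K)) [hQ : Q.IsMaximal] [Q.LiesOver P]
    (hℓQ : ((ℓ : ℕ) : integralClosure ℤ K) ∈ Q) :
    ∃ σ₀ : ((integralClosure ℤ K) ⧸ Q) ≃ₐ[ℤ ⧸ P] ((integralClosure ℤ K) ⧸ Q),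
      ∀ y, σ₀ y = y ^ ℓ := by
  letI : Field ((integralClosure ℤ K) ⧸ Q) := Ideal.Quotient.field Q
  haveI : Fact ℓ.Prime := ⟨hℓ⟩
  have h0 : ((ℓ : ℕ) : (integralClosure ℤ K) ⧸ Q) = 0 := by
    have := Ideal.Quotient.eq_zero_iff_mem.mpr hℓQ
    simpa using this
  haveI hchar : CharP ((integralClosure ℤ K) ⧸ Q) ℓ := (CharP.charP_iff_prime_eq_zero hℓ).mpr h0
  letI : Algebra (ZMod ℓ) ((integralClosure ℤ K) ⧸ Q) := ZMod.algebra _ ℓ
  haveI : Algebra.IsAlgebraic (ZMod ℓ) ((integralClosure ℤ K) ⧸ Q) := by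
    refine ⟨fun y => ?_⟩
    obtain ⟨b, rfl⟩ := Ideal.Quotient.mk_surjective y
    have hb : IsIntegral ℤ b := Algebra.IsIntegral.isIntegral b
    have hy : IsIntegral ℤ (Ideal.Quotient.mk Q b) := hb.map (Ideal.Quotient.mkₐ ℤ Q)
    exact (hy.tower_top (A := ZMod ℓ)).isAlgebraic
  haveI : PerfectField ((integralClosure ℤ K) ⧸ Q) := Algebra.IsAlgebraic.perfectField (ZMod ℓ)
  refine ⟨AlgEquiv.ofRingEquiv (f := frobeniusEquiv ((integralClosure ℤ K) ⧸ Q) ℓ) ?_,
    fun y => rfl⟩
  intro a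
  obtain ⟨n, rfl⟩ := Ideal.Quotient.mk_surjective a
  have h1 : algebraMap (ℤ ⧸ P) ((integralClosure ℤ K) ⧸ Q) (Ideal.Quotient.mk P n) =
      ((n : ℤ) : (integralClosure ℤ K) ⧸ Q) := by
    have : Ideal.Quotient.mk P n = ((n : ℤ) : ℤ ⧸ P) := by simp
    rw [this, map_intCast]
  rw [h1, frobeniusEquiv_def, ← frobenius_def, map_intCast]

/-- There is a maximal ideal `Q` of `B` over `ℓ` and `τ` in the Galois group stabilising `Q`
and inducing the Frobenius on `B ⧸ Q`. -/
theorem exists_frobenius_on_integralClosure (ℓ : ℕ) (hℓ : ℓ.Prime) :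
    ∃ (Q : Ideal (integralClosure ℤ K)) (_ : Q.IsMaximal) (τ : K ≃ₐ[ℚ] K),
      ((ℓ : ℕ) : integralClosure ℤ K) ∈ Q ∧
      (∀ n : ℤ, ((n : integralClosure ℤ K) ∈ Q) → (ℓ : ℤ) ∣ n) ∧
      (∀ b : integralClosure ℤ K, b ∈ Q ↔ τ • b ∈ Q) ∧
      (∀ b : integralClosure ℤ K, τ • b - b ^ ℓ ∈ Q) := by
  set P : Ideal ℤ := Ideal.span {(ℓ : ℤ)} with hP
  haveI hPmax : P.IsMaximal :=
    PrincipalIdealRing.isMaximal_of_irreducible (Nat.prime_iff_prime_int.mp hℓ).irreducible
  obtain ⟨Q, hQmax, hQP⟩ :=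
    Ideal.exists_maximal_ideal_liesOver_of_isIntegral (S := integralClosure ℤ K) P
  haveI := hQmax
  haveI := hQP
  have hℓQ : ((ℓ : ℕ) : integralClosure ℤ K) ∈ Q := by
    have h1 : (ℓ : ℤ) ∈ P := Ideal.subset_span rfl
    rw [hQP.over, Ideal.under_def, Ideal.mem_comap] at h1
    simpa using h1
  have hQℓ : ∀ n : ℤ, ((n : integralClosure ℤ K) ∈ Q) → (ℓ : ℤ) ∣ n := by
    intro n hn
    have h1 : n ∈ P := by
      rw [hQP.over, Ideal.under_def, Ideal.mem_comap]
      simpa using hn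
    exact Ideal.mem_span_singleton.mp h1
  obtain ⟨σ₀, hσ₀⟩ := exists_frobenius_algEquiv ℓ hℓ P Q hℓQ
  haveI := isGalois_of_isAlgClosure (K := K)
  haveI := isIntegral_of_isAlgClosure (K := K)
  letI : TopologicalSpace (integralClosure ℤ K) := ⊥
  haveI : DiscreteTopology (integralClosure ℤ K) := ⟨rfl⟩
  haveI := continuousSMul_integralClosure (K := K)
  haveI := isInvariant_integralClosure (K := K)
  obtain ⟨τ, hτ⟩ :=
    Ideal.Quotient.stabilizerHom_surjective_of_profinite (G := (K ≃ₐ[ℚ] K)) P Q σ₀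
  have key : ∀ g : (K ≃ₐ[ℚ] K), g • Q = Q →
      ∀ b : integralClosure ℤ K, (b ∈ Q ↔ g • b ∈ Q) := by
    intro g hg b
    constructor
    · intro hb
      have := Ideal.smul_mem_pointwise_smul g b Q hb
      rwa [hg] at this
    · intro hb
      rw [← hg] at hb
      exact Ideal.smul_mem_pointwise_smul_iff.mp hb
  refine ⟨Q, hQmax, (τ : (K ≃ₐ[ℚ] K)), hℓQ, hQℓ, key _ τ.2, ?_⟩
  · intro b
    have h1 := congrArg (fun e => e (Ideal.Quotient.mk Q b)) hτ
    simp only [Ideal.Quotient.stabilizerHom_apply, hσ₀] at h1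
    rw [← map_pow, Ideal.Quotient.eq] at h1
    exact h1

/-- Existence of Frobenius elements over an algebraic closure `K` of `ℚ`. -/
theorem exists_isFrobeniusAt_of_isAlgClosure (ℓ : ℕ) (hℓ : ℓ.Prime) :
    ∃ (A : ValuationSubring K) (σ : K ≃ₐ[ℚ] K), A.LiesOverPrime ℓ ∧ A.IsFrobeniusAt σ ℓ := by
  obtain ⟨Q, hQmax, τ, hℓQ, hQℓ, hτQ, hτF⟩ := exists_frobenius_on_integralClosure (K := K) ℓ hℓ
  haveI := hQmax
  haveI hQprime : Q.IsPrime := hQmax.isPrime
  set A : ValuationSubring K :=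
    locValuationSubring Q ℓ hℓ hQℓ isAlgebraic_int_of_isAlgClosure with hA
  have hmem : ∀ x : K, x ∈ A ↔
      ∃ b s : integralClosure ℤ K, s ∉ Q ∧ x * (s : K) = (b : K) :=
    fun x => Iff.rfl
  have hstab : ∀ g : (K ≃ₐ[ℚ] K), (∀ b : integralClosure ℤ K, b ∈ Q ↔ g • b ∈ Q) →
      ∀ x : K, x ∈ A → g x ∈ A := by
    intro g hg x hx
    obtain ⟨b, s, hs, h⟩ := (hmem x).mp hx
    refine (hmem _).mpr ⟨g • b, g • s, fun h' => hs ((hg s).mpr h'), ?_⟩
    rw [integralClosure.coe_smul, integralClosure.coe_smul, AlgEquiv.smul_def, AlgEquiv.smul_def,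
      ← map_mul, h]
  have hτinv : ∀ b : integralClosure ℤ K, b ∈ Q ↔ (τ⁻¹ : (K ≃ₐ[ℚ] K)) • b ∈ Q := by
    intro b
    have := hτQ (τ⁻¹ • b)
    rw [smul_inv_smul] at this
    exact this.symm
  have hdec : τ ∈ A.decompositionSubgroup ℚ := by
    rw [MulAction.mem_stabilizer_iff]
    ext x
    rw [ValuationSubring.mem_pointwise_smul_iff_inv_smul_mem]
    constructor
    · intro hx
      have h3 := hstab τ hτQ _ hx
      have e : τ (τ⁻¹ • x) = x := by
        rw [AlgEquiv.smul_def]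
        exact AlgEquiv.apply_symm_apply τ x
      rwa [e] at h3
    · intro hx
      exact hstab τ⁻¹ hτinv x hx
  refine ⟨A, τ, ?_, hdec, ?_⟩
  · show ((ℓ : ℕ) : K) ∈ A.nonunits
    refine mem_nonunits_locValuationSubring ((ℓ : ℕ) : integralClosure ℤ K) 1 hℓQ
      (fun h => hQprime.ne_top ((Ideal.eq_top_iff_one Q).mpr h)) ?_
    simp
  · intro y
    obtain ⟨a, rfl⟩ := IsLocalRing.residue_surjective y
    rw [← IsLocalRing.ResidueField.residue_smul, ← map_pow, ← sub_eq_zero, ← map_sub,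
      IsLocalRing.residue_eq_zero_iff, ← ValuationSubring.coe_mem_nonunits_iff]
    obtain ⟨b, s, hs, h⟩ := (hmem (a : K)).mp a.2
    have hcoe : (((⟨τ, hdec⟩ : A.decompositionSubgroup ℚ) • a - a ^ ℓ : A) : K)
        = τ (a : K) - (a : K) ^ ℓ := rfl
    rw [hcoe]
    refine mem_nonunits_locValuationSubring
      ((τ • b - b ^ ℓ) * s ^ ℓ + b ^ ℓ * (s ^ ℓ - τ • s)) ((τ • s) * s ^ ℓ) ?_ ?_ ?_
    · refine Q.add_mem (Q.mul_mem_right _ (hτF b)) (Q.mul_mem_left _ ?_)
      have := hτF s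
      have h2 : s ^ ℓ - τ • s = -(τ • s - s ^ ℓ) := by ring
      rw [h2]
      exact Q.neg_mem this
    · intro hmem'
      rcases hQprime.mem_or_mem hmem' with h1 | h1
      · exact hs ((hτQ s).mpr h1)
      · exact hs (hQprime.mem_of_pow_mem _ h1)
    · push_cast
      rw [integralClosure.coe_smul, integralClosure.coe_smul, AlgEquiv.smul_def,
        AlgEquiv.smul_def, ← h, map_mul]
      ring

end Global

theorem isAlgClosure_Qbar : IsAlgClosure ℚ (AlgebraicClosure ℚ) := by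
  have h : (DivisionRing.toRatAlgebra : Algebra ℚ (AlgebraicClosure ℚ)) =
      AlgebraicClosure.instAlgebra ℚ := Subsingleton.elim _ _
  rw [h]
  infer_instance

/-- Existence of Frobenius elements: for every prime `ℓ` there are a valuation subring `A` of
`ℚ̄` over `ℓ` and `σ` in the absolute Galois group which is a Frobenius at `A`. -/
theorem exists_isFrobeniusAt (ℓ : ℕ) (hℓ : ℓ.Prime) :
    ∃ (A : ValuationSubring (AlgebraicClosure ℚ))
      (σ : AlgebraicClosure ℚ ≃ₐ[ℚ] AlgebraicClosure ℚ),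
      A.LiesOverPrime ℓ ∧ A.IsFrobeniusAt σ ℓ :=
  haveI := isAlgClosure_Qbar
  exists_isFrobeniusAt_of_isAlgClosure ℓ hℓ

end Fermat.Agent.FrobLib
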