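import Mathlib
import Fermat.Prelude.Def_EllipticCurve_FrobeniusTrace

/-!
# Existence of Frobenius elements in `Gal(ℚ̄/ℚ)`

Main results (all in namespace `Fermat.Agent.FrobLib2`):

* `exists_valuationSubring_natCast_mem_nonunits`: for a prime `ℓ` and a field `L` of
  characteristic zero there is a valuation subring of `L` in which `ℓ` is a non-unit.
* `exists_isFrobeniusAt`: if `L/ℚ` is Galois and `A` is a valuation subring of `L` in which `ℓ`
  is a non-unit, then some `σ : L ≃ₐ[ℚ] L` satisfies `A.IsFrobeniusAt σ ℓ`.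
* `exists_liesOverPrime`, `exists_frobenius`, `exists_liesOverPrime_isFrobeniusAt`: the same
  specialised to `AlgebraicClosure ℚ` and the prelude predicate `LiesOverPrime`.
-/

set_option autoImplicit false
set_option linter.style.haveILetI false

namespace Fermat.Agent.FrobLib2

open Polynomial
open scoped Pointwise

/-- Horner-type integrality lemma: if `p(x) = 0` then `c(x) * (p /ₘ q)(x)` is integral
for every monic `q` and every `c` of degree at most one. -/
theorem isIntegral_aeval_mul_divByMonic {R L : Type*} [CommRing R] [Field L] [Algebra R L]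
    (p q c : R[X]) (hq : q.Monic) (hc : c.natDegree ≤ 1) (x : L) (hp : aeval x p = 0) :
    IsIntegral R (aeval x (c * (p /ₘ q))) := by
  have : Nontrivial R := (algebraMap R L).domain_nontrivial
  by_cases hq1 : q = 1
  · subst hq1
    rw [divByMonic_one, map_mul, hp, mul_zero]
    exact isIntegral_zero
  by_cases hnk : p.natDegree < q.natDegree
  · have h0 : p /ₘ q = 0 := (divByMonic_eq_zero_iff hq).2 (degree_lt_degree hnk)
    rw [h0, mul_zero, map_zero]
    exact isIntegral_zero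
  rw [not_lt] at hnk
  set n := p.natDegree with hn
  set k := q.natDegree with hk
  set u := p /ₘ q with hu
  set l := p %ₘ q with hl
  have hk1 : 1 ≤ k := by
    rcases Nat.eq_zero_or_pos k with h | h
    · exact absurd (hq.natDegree_eq_zero.1 h) hq1
    · exact h
  have hpq : l + q * u = p := modByMonic_add_div p q
  have hl_deg : l.natDegree < k := natDegree_modByMonic_lt p hq hq1
  have hu_deg : u.natDegree = n - k := natDegree_divByMonic p hq
  have hrel : aeval x q * aeval x u = - aeval x l := by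
    have h1 : aeval x l + aeval x q * aeval x u = 0 := by
      rw [← map_mul, ← map_add, hpq, hp]
    exact eq_neg_of_add_eq_zero_right h1
  let N : Submodule R L := Submodule.map (aeval x).toLinearMap (degreeLT R (n + 1))
  have hNfg : N.FG := by
    apply Submodule.FG.map
    classical
    rw [degreeLT_eq_span_X_pow]
    exact Submodule.fg_span (Finset.finite_toSet _)
  have hN0 : N ≠ ⊥ := by
    intro h
    have h1 : (1 : L) ∈ N := by
      refine ⟨1, ?_, by simp⟩
      rw [SetLike.mem_coe, mem_degreeLT, degree_one]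
      exact_mod_cast Nat.succ_pos n
    rw [h, Submodule.mem_bot] at h1
    exact one_ne_zero h1
  refine isIntegral_of_smul_mem_submodule N hN0 hNfg _ ?_
  rintro _ ⟨f, hf, rfl⟩
  rw [SetLike.mem_coe, mem_degreeLT] at hf
  have hf_deg : f.natDegree ≤ n := by
    by_cases hf0 : f = 0
    · simp [hf0]
    · have := (natDegree_lt_iff_degree_lt hf0).2 hf
      omega
  set f₀ := f %ₘ q with hf₀
  set f₁ := f /ₘ q with hf₁
  have hfq : f₀ + q * f₁ = f := modByMonic_add_div f q
  have hf₀_deg : f₀.natDegree < k := natDegree_modByMonic_lt f hq hq1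
  have hf₁_deg : f₁.natDegree = f.natDegree - k := natDegree_divByMonic f hq
  refine ⟨c * u * f₀ - c * l * f₁, ?_, ?_⟩
  · rw [SetLike.mem_coe, mem_degreeLT]
    have h1 : (c * u * f₀).natDegree ≤ n := by
      calc (c * u * f₀).natDegree ≤ (c * u).natDegree + f₀.natDegree := natDegree_mul_le
        _ ≤ (c.natDegree + u.natDegree) + f₀.natDegree := by gcongr; exact natDegree_mul_le
        _ ≤ n := by omega
    have h2 : (c * l * f₁).natDegree ≤ n := by
      calc (c * l * f₁).natDegree ≤ (c * l).natDegree + f₁.natDegree := natDegree_mul_le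
        _ ≤ (c.natDegree + l.natDegree) + f₁.natDegree := by gcongr; exact natDegree_mul_le
        _ ≤ n := by omega
    have h3 : (c * u * f₀ - c * l * f₁).natDegree ≤ n :=
      (natDegree_sub_le _ _).trans (max_le h1 h2)
    exact (degree_le_natDegree).trans_lt (by exact_mod_cast Nat.lt_succ_of_le h3)
  · simp only [AlgHom.toLinearMap_apply, map_sub, map_mul, smul_eq_mul]
    have h4 : aeval x f = aeval x f₀ + aeval x q * aeval x f₁ := by
      rw [← map_mul, ← map_add, hfq]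
    rw [h4]
    linear_combination (-(aeval x c * aeval x f₁)) * hrel

/-- In a valuation subring `A` of an algebraic extension `L` of `ℚ` in which the prime `ℓ` is a
non-unit, every element of `A` is a quotient `b / s` of algebraic integers with `s` a unit
of `A`. -/
theorem exists_integral_unit_mul {L : Type*} [Field L] [Algebra ℚ L] [Algebra.IsAlgebraic ℚ L]
    (A : ValuationSubring L) {ℓ : ℕ} (hℓ : ℓ.Prime) (hA : (ℓ : L) ∈ A.nonunits)
    (x : L) (hx : x ∈ A) :
    ∃ s b : L, IsIntegral ℤ s ∧ IsIntegral ℤ b ∧ s ≠ 0 ∧ s ∈ A ∧ s⁻¹ ∈ A ∧ x * s = b := by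
  -- a primitive integer polynomial vanishing at `x`
  have hchar : CharZero L := algebraRat.charZero L
  have hxalg : IsAlgebraic ℤ x :=
    (IsFractionRing.isAlgebraic_iff ℤ ℚ L).2 (Algebra.IsAlgebraic.isAlgebraic x)
  obtain ⟨p₀, hp₀, hp₀x⟩ := hxalg
  set p := p₀.primPart with hp
  have hprim : p.IsPrimitive := isPrimitive_primPart p₀
  have hpx : aeval x p = 0 := aeval_primPart_eq_zero hp₀ hp₀x
  have hℓp : Prime (ℓ : ℤ) := Nat.prime_iff_prime_int.1 hℓ
  -- some coefficient is not divisible by `ℓ`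
  have hex : ∃ j, ¬ (ℓ : ℤ) ∣ p.coeff j := by
    by_contra hcon
    push Not at hcon
    have h1 : C (ℓ : ℤ) ∣ p := (C_dvd_iff_dvd_coeff _ _).2 hcon
    exact hℓp.not_isUnit (hprim _ h1)
  -- the largest such index
  have hbdd : ∀ j, ¬ (ℓ : ℤ) ∣ p.coeff j → j ≤ p.natDegree := by
    intro j hj
    by_contra hlt
    rw [not_le] at hlt
    exact hj (by rw [coeff_eq_zero_of_natDegree_lt hlt]; exact dvd_zero _)
  classical
  obtain ⟨j, hj, hjmax⟩ : ∃ j, ¬ (ℓ : ℤ) ∣ p.coeff j ∧ ∀ i, j < i → (ℓ : ℤ) ∣ p.coeff i := by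
    refine ⟨Nat.findGreatest (fun j => ¬ (ℓ : ℤ) ∣ p.coeff j) p.natDegree, ?_, ?_⟩
    · obtain ⟨j, hj⟩ := hex
      exact Nat.findGreatest_spec (P := fun j => ¬ (ℓ : ℤ) ∣ p.coeff j) (hbdd j hj) hj
    · intro i hi
      by_contra hcon
      have := Nat.le_findGreatest (P := fun j => ¬ (ℓ : ℤ) ∣ p.coeff j) (hbdd i hcon) hcon
      omega
  set u := p /ₘ (X ^ j) with hu
  have hmon : (X ^ j : ℤ[X]).Monic := monic_X_pow j
  have hucoeff : ∀ i, u.coeff i = p.coeff (i + j) := by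
    intro i
    have h1 : p %ₘ (X ^ j) + X ^ j * u = p := modByMonic_add_div p (X ^ j)
    have h2 : (p %ₘ (X ^ j)).coeff (i + j) = 0 := by
      apply coeff_eq_zero_of_degree_lt
      refine (degree_modByMonic_lt p hmon).trans_le ?_
      rw [degree_X_pow]
      exact_mod_cast Nat.le_add_left j i
    conv_rhs => rw [← h1]
    rw [coeff_add, h2, zero_add, coeff_X_pow_mul]
  -- the elements
  have hs_int : IsIntegral ℤ (aeval x u) := by
    have := isIntegral_aeval_mul_divByMonic p (X ^ j) 1 hmon (by simp) x hpx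
    rwa [one_mul] at this
  have hb_int : IsIntegral ℤ (x * aeval x u) := by
    have := isIntegral_aeval_mul_divByMonic p (X ^ j) X hmon (by simp) x hpx
    rwa [map_mul, aeval_X] at this
  -- work inside `A`
  let x' : A := ⟨x, hx⟩
  let y' : A := aeval x' u
  have hy'coe : ((y' : A) : L) = aeval x u := by
    have h1 : (A.subtype : A →+* L) (eval₂ (algebraMap ℤ A) x' u)
        = eval₂ ((A.subtype : A →+* L).comp (algebraMap ℤ A)) ((A.subtype : A →+* L) x') u :=
      hom_eval₂ u (algebraMap ℤ A) (A.subtype : A →+* L) x'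
    have h2 : ((A.subtype : A →+* L).comp (algebraMap ℤ A)) = algebraMap ℤ L :=
      RingHom.ext_int _ _
    rw [h2] at h1
    exact h1
  -- residue computation
  let κ := IsLocalRing.ResidueField A
  let π : A →+* κ := IsLocalRing.residue A
  have hℓκ : ((ℓ : ℤ) : κ) = 0 := by
    obtain ⟨ha, hmem⟩ := (ValuationSubring.mem_nonunits_iff_exists_mem_maximalIdeal).1 hA
    have h1 : π ⟨(ℓ : L), ha⟩ = 0 := (IsLocalRing.residue_eq_zero_iff _).2 hmem
    have h2 : (⟨(ℓ : L), ha⟩ : A) = ((ℓ : ℕ) : A) := Subtype.ext (by simp)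
    rw [h2, map_natCast] at h1
    exact_mod_cast h1
  have hdvd0 : ∀ a : ℤ, (ℓ : ℤ) ∣ a → (a : κ) = 0 := by
    rintro a ⟨t, rfl⟩
    rw [Int.cast_mul, hℓκ, zero_mul]
  have hndvd : ∀ a : ℤ, ¬ (ℓ : ℤ) ∣ a → (a : κ) ≠ 0 := by
    intro a ha h0
    have hcop : IsCoprime (ℓ : ℤ) a := (hℓp.irreducible.coprime_iff_not_dvd).2 ha
    obtain ⟨r, s, hrs⟩ := hcop
    have h1 : ((r * (ℓ : ℤ) + s * a : ℤ) : κ) = 1 := by rw [hrs]; simp
    rw [Int.cast_add, Int.cast_mul, Int.cast_mul, hℓκ, h0, mul_zero, mul_zero, add_zero] at h1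
    exact zero_ne_one h1
  have hπy : π y' = ((p.coeff j : ℤ) : κ) := by
    have h1 : π (eval₂ (algebraMap ℤ A) x' u)
        = eval₂ (π.comp (algebraMap ℤ A)) (π x') u := hom_eval₂ u (algebraMap ℤ A) π x'
    have h2 : π.comp (algebraMap ℤ A) = Int.castRingHom κ := RingHom.ext_int _ _
    rw [h2] at h1
    have h3 : u.map (Int.castRingHom κ) = C ((p.coeff j : ℤ) : κ) := by
      ext i
      rw [coeff_map, coeff_C, hucoeff]
      split_ifs with hi
      · subst hi; simp
      · exact hdvd0 _ (hjmax _ (by omega))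
    have h4 : eval₂ (Int.castRingHom κ) (π x') u = ((p.coeff j : ℤ) : κ) := by
      rw [eval₂_eq_eval_map, h3, eval_C]
    exact h1.trans h4
  have hunit : IsUnit y' := by
    rw [← IsLocalRing.residue_ne_zero_iff_isUnit]
    show π y' ≠ 0
    rw [hπy]
    exact hndvd _ hj
  refine ⟨aeval x u, x * aeval x u, hs_int, hb_int, ?_, ?_, ?_, rfl⟩
  · rw [← hy'coe]
    intro h0
    have h1 : y' = 0 := Subtype.ext h0
    rw [h1] at hunit
    exact not_isUnit_zero hunit
  · rw [← hy'coe]; exact y'.2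
  · obtain ⟨w, hw⟩ := hunit
    have h1 : ((w⁻¹ : Aˣ) : A) * y' = 1 := by rw [← hw]; exact w.inv_mul
    have h2 : (((w⁻¹ : Aˣ) : A) : L) * aeval x u = 1 := by
      rw [← hy'coe]
      exact_mod_cast congrArg (fun z : A => (z : L)) h1
    have h3 : (aeval x u)⁻¹ = (((w⁻¹ : Aˣ) : A) : L) := (eq_inv_of_mul_eq_one_left h2).symm
    rw [h3]
    exact ((w⁻¹ : Aˣ) : A).2


section Galois

variable {L : Type*} [Field L] [Algebra ℚ L] [IsGalois ℚ L]

theorem isInvariant_integralClosure :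
    Algebra.IsInvariant ℤ (integralClosure ℤ L) (L ≃ₐ[ℚ] L) := by
  constructor
  intro b hb
  have h1 : (b : L) ∈ Set.range (algebraMap ℚ L) := by
    rw [InfiniteGalois.mem_range_algebraMap_iff_fixed]
    intro f
    exact congrArg Subtype.val (hb f)
  obtain ⟨r, hr⟩ := h1
  have h2 : IsIntegral ℤ r := by
    have h3 : IsIntegral ℤ (algebraMap ℚ L r) := by rw [hr]; exact b.2
    exact (isIntegral_algebraMap_iff (algebraMap ℚ L).injective).1 h3
  obtain ⟨n, hn⟩ := IsIntegrallyClosed.isIntegral_iff.1 h2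
  refine ⟨n, Subtype.ext ?_⟩
  rw [← hr, ← hn]
  simp

omit [Algebra ℚ L] [IsGalois ℚ L] in
theorem integral_mem_valuationSubring (A : ValuationSubring L) {b : L} (hb : IsIntegral ℤ b) :
    b ∈ A := by
  have h1 : IsIntegral A b := hb.tower_top
  obtain ⟨y, hy⟩ := IsIntegrallyClosed.isIntegral_iff.1 h1
  rw [← hy]
  exact y.2


theorem exists_isFrobeniusAt (A : ValuationSubring L) {ℓ : ℕ} (hℓ : ℓ.Prime)
    (hA : (ℓ : L) ∈ A.nonunits) :
    ∃ σ : L ≃ₐ[ℚ] L, A.IsFrobeniusAt σ ℓ := by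
  classical
  let G := L ≃ₐ[ℚ] L
  let B := integralClosure ℤ L
  haveI : Algebra.IsInvariant ℤ B G := isInvariant_integralClosure
  letI : TopologicalSpace B := ⊥
  haveI : DiscreteTopology B := ⟨rfl⟩
  haveI : ContinuousSMul G B := by
    rw [continuousSMul_iff_stabilizer_isOpen]
    intro b
    have h : (MulAction.stabilizer G b : Set G) = (MulAction.stabilizer G (b : L) : Set G) := by
      ext g
      simp only [SetLike.mem_coe, MulAction.mem_stabilizer_iff]
      exact Subtype.ext_iff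
    rw [h]
    exact stabilizer_isOpen_of_isIntegral (b : L)
  have hBA : ∀ b : B, (b : L) ∈ A := fun b => integral_mem_valuationSubring A b.2
  let φ : B →+* A :=
    { toFun := fun b => ⟨b, hBA b⟩
      map_one' := rfl
      map_mul' := fun _ _ => rfl
      map_zero' := rfl
      map_add' := fun _ _ => rfl }
  let Q : Ideal B := (IsLocalRing.maximalIdeal A).comap φ
  let P : Ideal ℤ := Ideal.span {(ℓ : ℤ)}
  haveI hQprime : Q.IsPrime := Ideal.comap_isPrime φ _
  haveI : Fact ℓ.Prime := ⟨hℓ⟩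
  haveI hPmax : P.IsMaximal := Int.ideal_span_isMaximal_of_prime ℓ
  have hℓA : ((ℓ : ℕ) : A) ∈ IsLocalRing.maximalIdeal A := by
    obtain ⟨ha, hmem⟩ := (ValuationSubring.mem_nonunits_iff_exists_mem_maximalIdeal).1 hA
    have h2 : (⟨(ℓ : L), ha⟩ : A) = ((ℓ : ℕ) : A) := Subtype.ext (by simp)
    rwa [h2] at hmem
  haveI hQP : Q.LiesOver P := by
    constructor
    refine hPmax.eq_of_le (Ideal.IsPrime.under ℤ Q).ne_top ?_
    rw [Ideal.span_le, Set.singleton_subset_iff]
    show algebraMap ℤ B (ℓ : ℤ) ∈ Q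
    show φ (algebraMap ℤ B (ℓ : ℤ)) ∈ IsLocalRing.maximalIdeal A
    have : φ (algebraMap ℤ B (ℓ : ℤ)) = ((ℓ : ℕ) : A) := by simp
    rw [this]
    exact hℓA
  haveI hQmax : Q.IsMaximal := Ideal.IsMaximal.of_liesOver_isMaximal Q P
  letI : Field (ℤ ⧸ P) := Ideal.Quotient.field P
  letI : Field (B ⧸ Q) := Ideal.Quotient.field Q
  haveI : Finite (ℤ ⧸ P) := Finite.of_equiv _ (Int.quotientSpanNatEquivZMod ℓ).symm.toEquiv
  letI : Fintype (ℤ ⧸ P) := Fintype.ofFinite _
  have hcard : Fintype.card (ℤ ⧸ P) = ℓ := by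
    rw [Fintype.card_eq_nat_card, Nat.card_congr (Int.quotientSpanNatEquivZMod ℓ).toEquiv,
      Nat.card_zmod]
  haveI : Algebra.IsIntegral ℤ B := inferInstance
  haveI : Algebra.IsIntegral (ℤ ⧸ P) (B ⧸ Q) := inferInstance
  haveI : Algebra.IsAlgebraic (ℤ ⧸ P) (B ⧸ Q) := Algebra.IsIntegral.isAlgebraic
  let σ : (B ⧸ Q) ≃ₐ[ℤ ⧸ P] (B ⧸ Q) := FiniteField.frobeniusAlgEquivOfAlgebraic (ℤ ⧸ P) (B ⧸ Q)
  obtain ⟨g, hg⟩ := Ideal.Quotient.stabilizerHom_surjective_of_profinite (G := G) P Q σ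
  have hfrob : ∀ b : B, φ (g.1 • b) - φ b ^ ℓ ∈ IsLocalRing.maximalIdeal A := by
    intro b
    have h1 : Ideal.Quotient.stabilizerHom Q P G g (Ideal.Quotient.mk Q b)
        = σ (Ideal.Quotient.mk Q b) := by rw [hg]
    rw [Ideal.Quotient.stabilizerHom_apply] at h1
    have h2 : σ (Ideal.Quotient.mk Q b) = (Ideal.Quotient.mk Q b) ^ ℓ := by
      show (Ideal.Quotient.mk Q b) ^ (Fintype.card (ℤ ⧸ P)) = _
      rw [hcard]
    rw [h2, ← map_pow, Ideal.Quotient.eq] at h1
    have h3 : φ (g • b - b ^ ℓ) ∈ IsLocalRing.maximalIdeal A := h1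
    rwa [map_sub, map_pow] at h3
  -- integral elements that are units of `A` stay units under the stabilizer of `Q`
  have hunitA : ∀ s : L, s ≠ 0 → ∀ hs : s ∈ A, s⁻¹ ∈ A → IsUnit (⟨s, hs⟩ : A) := by
    intro s hs0 hs hsinv
    refine isUnit_iff_exists_inv.2 ⟨⟨s⁻¹, hsinv⟩, Subtype.ext ?_⟩
    show s * s⁻¹ = 1
    exact mul_inv_cancel₀ hs0
  have hinvA : ∀ a : A, IsUnit a → (a : L)⁻¹ ∈ A := by
    rintro a ⟨w, rfl⟩
    have h1 : ((w : A) : L) * (((w⁻¹ : Aˣ) : A) : L) = 1 := by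
      exact_mod_cast congrArg (fun z : A => (z : L)) w.mul_inv
    rw [← eq_inv_of_mul_eq_one_right h1]
    exact ((w⁻¹ : Aˣ) : A).2
  have hstab : ∀ h : G, h • Q = Q → ∀ x ∈ A, h x ∈ A := by
    intro h hh x hx
    obtain ⟨s, b, hs, hb, hs0, hsA, hsinvA, hxs⟩ := exists_integral_unit_mul A hℓ hA x hx
    let s' : B := ⟨s, hs⟩
    let b' : B := ⟨b, hb⟩
    have h1 : h x * h s = h b := by rw [← map_mul, hxs]
    have hs'Q : s' ∉ Q := by
      intro hmem
      have h2 : φ s' ∈ IsLocalRing.maximalIdeal A := hmem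
      rw [IsLocalRing.mem_maximalIdeal, mem_nonunits_iff] at h2
      exact h2 (hunitA s hs0 hsA hsinvA)
    have hhs'Q : h • s' ∉ Q := by
      intro hmem
      apply hs'Q
      have h2 : h • s' ∈ h • Q := by rwa [hh]
      exact (Ideal.smul_mem_pointwise_smul_iff).1 h2
    have hunit : IsUnit (φ (h • s')) := by
      by_contra hnu
      exact hhs'Q hnu
    have hhsinv : (h s)⁻¹ ∈ A := hinvA _ hunit
    have hhb : h b ∈ A := hBA (h • b')
    have hhs0 : h s ≠ 0 := by
      intro h0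
      exact hs0 ((map_eq_zero h).1 h0)
    have h3 : h x = h b * (h s)⁻¹ := (eq_mul_inv_iff_mul_eq₀ hhs0).2 h1
    rw [h3]
    exact A.mul_mem _ _ hhb hhsinv
  have hgQ : g.1 • Q = Q := g.2
  have hginvQ : g.1⁻¹ • Q = Q := (g⁻¹).2
  have hdec : g.1 ∈ A.decompositionSubgroup ℚ := by
    rw [MulAction.mem_stabilizer_iff]
    apply le_antisymm
    · intro y hy
      obtain ⟨x, hx, rfl⟩ := (ValuationSubring.mem_smul_pointwise_iff_exists _ _ _).1 hy
      exact hstab g.1 hgQ x hx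
    · intro y hy
      rw [ValuationSubring.mem_pointwise_smul_iff_inv_smul_mem]
      exact hstab g.1⁻¹ hginvQ y hy
  refine ⟨g.1, hdec, ?_⟩
  intro xbar
  obtain ⟨a, rfl⟩ := IsLocalRing.residue_surjective xbar
  rw [← IsLocalRing.ResidueField.residue_smul, ← map_pow]
  obtain ⟨s, b, hs, hb, hs0, hsA, hsinvA, hxs⟩ := exists_integral_unit_mul A hℓ hA a a.2
  let s' : B := ⟨s, hs⟩
  let b' : B := ⟨b, hb⟩
  let π : A →+* IsLocalRing.ResidueField A := IsLocalRing.residue A
  have e1 : a * φ s' = φ b' := Subtype.ext hxs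
  have e2 : ((⟨g.1, hdec⟩ : A.decompositionSubgroup ℚ) • a) * φ (g.1 • s') = φ (g.1 • b') := by
    apply Subtype.ext
    show g.1 (a : L) * g.1 s = g.1 b
    rw [← map_mul, hxs]
  have e3 : ∀ c : B, π (φ (g.1 • c)) = π (φ c) ^ ℓ := by
    intro c
    rw [← map_pow]
    exact Ideal.Quotient.eq.2 (hfrob c)
  have e4 : π (φ s') ≠ 0 := by
    have h2 : IsUnit (φ s') := hunitA s hs0 hsA hsinvA
    exact (IsLocalRing.residue_ne_zero_iff_isUnit _).2 h2
  have e5 : π ((⟨g.1, hdec⟩ : A.decompositionSubgroup ℚ) • a) * π (φ s') ^ ℓ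
      = π a ^ ℓ * π (φ s') ^ ℓ := by
    calc π ((⟨g.1, hdec⟩ : A.decompositionSubgroup ℚ) • a) * π (φ s') ^ ℓ
        = π ((⟨g.1, hdec⟩ : A.decompositionSubgroup ℚ) • a) * π (φ (g.1 • s')) := by rw [e3 s']
      _ = π (((⟨g.1, hdec⟩ : A.decompositionSubgroup ℚ) • a) * φ (g.1 • s')) := (map_mul _ _ _).symm
      _ = π (φ (g.1 • b')) := by rw [e2]
      _ = π (φ b') ^ ℓ := e3 b'
      _ = π (a * φ s') ^ ℓ := by rw [e1]
      _ = π a ^ ℓ * π (φ s') ^ ℓ := by rw [map_mul, mul_pow]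
  have e6 := mul_right_cancel₀ (pow_ne_zero ℓ e4) e5
  rw [map_pow]
  exact e6


end Galois

theorem not_isIntegral_inv_natCast {L : Type*} [Field L] [Algebra ℚ L] {ℓ : ℕ} (hℓ : ℓ.Prime) :
    ¬ IsIntegral ℤ ((ℓ : L)⁻¹) := by
  intro hint
  have hmap : algebraMap ℚ L ((ℓ : ℚ)⁻¹) = (ℓ : L)⁻¹ := by
    rw [map_inv₀, map_natCast]
  rw [← hmap] at hint
  have hintQ : IsIntegral ℤ ((ℓ : ℚ)⁻¹) :=
    (isIntegral_algebraMap_iff (algebraMap ℚ L).injective).mp hint
  obtain ⟨m, hm⟩ := IsIntegrallyClosed.isIntegral_iff.mp hintQ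
  rw [eq_intCast] at hm
  have hpQ : (ℓ : ℚ) ≠ 0 := by exact_mod_cast hℓ.ne_zero
  have hmul : ((ℓ * m : ℤ) : ℚ) = ((1 : ℤ) : ℚ) := by
    push_cast; rw [hm]; field_simp
  have hdvd : (ℓ : ℤ) ∣ 1 := ⟨m, (Int.cast_injective hmul).symm⟩
  have hple : (ℓ : ℤ) ≤ 1 := Int.le_of_dvd one_pos hdvd
  have := hℓ.two_le; omega

theorem exists_valuationSubring_natCast_mem_nonunits {L : Type*} [Field L] [Algebra ℚ L]
    {ℓ : ℕ} (hℓ : ℓ.Prime) : ∃ A : ValuationSubring L, (ℓ : L) ∈ A.nonunits := by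
  haveI : IsIntegrallyClosedIn ((integralClosure ℤ L).toSubring) L :=
    inferInstanceAs (IsIntegrallyClosedIn (integralClosure ℤ L) L)
  have hx : (ℓ : L)⁻¹ ∉ (integralClosure ℤ L).toSubring := fun h =>
    not_isIntegral_inv_natCast hℓ h
  obtain ⟨V, -, hV⟩ := Subring.exists_le_valuationSubring_of_isIntegrallyClosedIn hx
  exact ⟨V, (ValuationSubring.mem_nonunits_iff_or V).2 (Or.inr hV)⟩


/-- `ℚ̄/ℚ` is Galois, for the algebra structure `DivisionRing.toRatAlgebra` that instance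
resolution finds (and that the prelude uses). -/
theorem isGalois_algebraicClosure_rat : IsGalois ℚ (AlgebraicClosure ℚ) := by
  have h : (AlgebraicClosure.instAlgebra ℚ : Algebra ℚ (AlgebraicClosure ℚ))
      = DivisionRing.toRatAlgebra := Subsingleton.elim _ _
  have key : @IsGalois ℚ _ (AlgebraicClosure ℚ) _ (AlgebraicClosure.instAlgebra ℚ) :=
    @IsAlgClosure.isGalois ℚ (AlgebraicClosure ℚ) _ _ (AlgebraicClosure.instAlgebra ℚ) _ _
  rw [h] at key
  exact key

/-- There is a valuation subring of `ℚ̄` lying over any given prime. -/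
theorem exists_liesOverPrime {ℓ : ℕ} (hℓ : ℓ.Prime) :
    ∃ A : ValuationSubring (AlgebraicClosure ℚ), A.LiesOverPrime ℓ :=
  exists_valuationSubring_natCast_mem_nonunits hℓ

/-- Every valuation subring of `ℚ̄` over a prime `ℓ` admits a Frobenius element. -/
theorem exists_frobenius (A : ValuationSubring (AlgebraicClosure ℚ)) {ℓ : ℕ} (hℓ : ℓ.Prime)
    (hA : A.LiesOverPrime ℓ) :
    ∃ σ : AlgebraicClosure ℚ ≃ₐ[ℚ] AlgebraicClosure ℚ, A.IsFrobeniusAt σ ℓ :=
  haveI : IsGalois ℚ (AlgebraicClosure ℚ) := isGalois_algebraicClosure_rat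
  exists_isFrobeniusAt A hℓ hA

/-- For every prime `ℓ` there are a valuation subring of `ℚ̄` over `ℓ` and a Frobenius element
for it. -/
theorem exists_liesOverPrime_isFrobeniusAt {ℓ : ℕ} (hℓ : ℓ.Prime) :
    ∃ (A : ValuationSubring (AlgebraicClosure ℚ))
      (σ : AlgebraicClosure ℚ ≃ₐ[ℚ] AlgebraicClosure ℚ),
      A.LiesOverPrime ℓ ∧ A.IsFrobeniusAt σ ℓ := by
  obtain ⟨A, hA⟩ := exists_liesOverPrime hℓ
  obtain ⟨σ, hσ⟩ := exists_frobenius A hℓ hA
  exact ⟨A, σ, hA, hσ⟩

end Fermat.Agent.FrobLib2
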