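import Fermat.Statements.S02
-- import your own Fermat.Agent.* helpers here

set_option autoImplicit false
open FreyPackage

namespace Fermat.Agent.S02

/-- Core case: `a`, `b` coprime and `b` even. -/
theorem core_even_b (a b c : ℤ) (ha : a ≠ 0) (hb : b ≠ 0) (hc : c ≠ 0) (p : ℕ)
    (pp : p.Prime) (hp5 : 5 ≤ p) (H : a ^ p + b ^ p = c ^ p) (hgcd : gcd a b = 1)
    (hb2 : (2 : ℤ) ∣ b) : Nonempty FreyPackage := by
  have hpodd : Odd p := pp.odd_of_ne_two (by omega)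
  have ha_odd : ¬ (2 : ℤ) ∣ a := by
    intro h
    have h2 : (2 : ℤ) ∣ gcd a b := dvd_gcd h hb2
    rw [hgcd] at h2
    norm_num at h2
  have hb2' : (b : ZMod 2) = 0 := (ZMod.intCast_zmod_eq_zero_iff_dvd b 2).2 hb2
  have hcases : a % 4 = 1 ∨ a % 4 = 3 := by omega
  rcases hcases with h1 | h3
  · refine ⟨⟨-a, -b, -c, neg_ne_zero.mpr ha, neg_ne_zero.mpr hb, neg_ne_zero.mpr hc, p, pp, hp5,
      ?_, ?_, ?_, ?_⟩⟩
    · rw [hpodd.neg_pow, hpodd.neg_pow, hpodd.neg_pow, ← H]; ring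
    · rw [gcd_neg, neg_gcd]; exact hgcd
    · have h4 : ((-a - 3 : ℤ) : ZMod 4) = 0 := by
        rw [ZMod.intCast_zmod_eq_zero_iff_dvd]
        omega
      have h5 : ((-a : ℤ) : ZMod 4) = ((-a - 3 : ℤ) : ZMod 4) + 3 := by
        push_cast; ring
      rw [h5, h4, zero_add]
    · rw [Int.cast_neg, hb2', neg_zero]
  · refine ⟨⟨a, b, c, ha, hb, hc, p, pp, hp5, H, hgcd, ?_, hb2'⟩⟩
    have h4 : ((a - 3 : ℤ) : ZMod 4) = 0 := by
      rw [ZMod.intCast_zmod_eq_zero_iff_dvd]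
      omega
    have h5 : ((a : ℤ) : ZMod 4) = ((a - 3 : ℤ) : ZMod 4) + 3 := by
      push_cast; ring
    rw [h5, h4, zero_add]

/-- Coprime case. -/
theorem core_coprime (a b c : ℤ) (ha : a ≠ 0) (hb : b ≠ 0) (hc : c ≠ 0) (p : ℕ)
    (pp : p.Prime) (hp5 : 5 ≤ p) (H : a ^ p + b ^ p = c ^ p) (hgcd : gcd a b = 1) :
    Nonempty FreyPackage := by
  have hpodd : Odd p := pp.odd_of_ne_two (by omega)
  have hp0 : p ≠ 0 := pp.ne_zero
  by_cases hb2 : (2 : ℤ) ∣ b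
  · exact core_even_b a b c ha hb hc p pp hp5 H hgcd hb2
  by_cases ha2 : (2 : ℤ) ∣ a
  · exact core_even_b b a c hb ha hc p pp hp5 (by rw [add_comm]; exact H)
      (by rw [gcd_comm]; exact hgcd) ha2
  -- both odd, so `c` is even
  have hc2 : (2 : ℤ) ∣ c := by
    have hao : Odd a := by rwa [← Int.not_even_iff_odd, even_iff_two_dvd]
    have hbo : Odd b := by rwa [← Int.not_even_iff_odd, even_iff_two_dvd]
    have hce : Even (c ^ p) := by
      rw [← H]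
      exact (hao.pow).add_odd (hbo.pow)
    rw [← even_iff_two_dvd]
    exact (Int.even_pow.1 hce).1
  -- a ^ p + (-c) ^ p = (-b) ^ p
  refine core_even_b a (-c) (-b) ha (neg_ne_zero.mpr hc) (neg_ne_zero.mpr hb) p pp hp5 ?_ ?_
    ((dvd_neg).2 hc2)
  · rw [hpodd.neg_pow, hpodd.neg_pow, ← H]; ring
  · rw [gcd_neg, ← FreyPackage.gcdab_eq_gcdac pp.pos H]; exact hgcd

theorem result (a b c : ℤ) (ha : a ≠ 0) (hb : b ≠ 0) (hc : c ≠ 0) (p : ℕ) (pp : p.Prime) (hp5 : 5 ≤ p) (H : a ^ p + b ^ p = c ^ p) : Nonempty FreyPackage := by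
  have hp0 : p ≠ 0 := pp.ne_zero
  -- divide out by the gcd of a and b
  set d : ℤ := gcd a b with hd
  have hd0 : d ≠ 0 := by
    rw [hd]
    intro h
    exact ha ((gcd_eq_zero_iff a b).1 h).1
  obtain ⟨a', ha'⟩ : d ∣ a := gcd_dvd_left a b
  obtain ⟨b', hb'⟩ : d ∣ b := gcd_dvd_right a b
  have hdc : d ∣ c := by
    rw [← Int.pow_dvd_pow_iff hp0, ← H]
    exact dvd_add (pow_dvd_pow_of_dvd (gcd_dvd_left a b) p) (pow_dvd_pow_of_dvd (gcd_dvd_right a b) p)
  obtain ⟨c', hc'⟩ := hdc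
  have ha'0 : a' ≠ 0 := by rintro rfl; exact ha (by rw [ha', mul_zero])
  have hb'0 : b' ≠ 0 := by rintro rfl; exact hb (by rw [hb', mul_zero])
  have hc'0 : c' ≠ 0 := by rintro rfl; exact hc (by rw [hc', mul_zero])
  have H' : a' ^ p + b' ^ p = c' ^ p := by
    have h1 : d ^ p * (a' ^ p + b' ^ p) = d ^ p * c' ^ p := by
      rw [mul_add, ← mul_pow, ← mul_pow, ← mul_pow, ← ha', ← hb', ← hc']
      exact H
    exact mul_left_cancel₀ (pow_ne_zero p hd0) h1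
  have hgcd' : gcd a' b' = 1 := by
    have h1 : gcd (d * a') (d * b') = normalize d * gcd a' b' := gcd_mul_left d a' b'
    rw [← ha', ← hb', ← hd] at h1
    have h2 : normalize d = d := by
      rw [hd]; exact normalize_gcd a b
    rw [h2] at h1
    have h3 : d * 1 = d * gcd a' b' := by rw [mul_one]; exact h1
    exact (mul_left_cancel₀ hd0 h3).symm
  exact core_coprime a' b' c' ha'0 hb'0 hc'0 p pp hp5 H' hgcd'

end Fermat.Agent.S02
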