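import Fermat.Statements.S05
import Fermat.Agent.S05Lib.Assembly

/-!
# S05: the mod `p` Galois representation of the Frey curve is unramified at `q ∤ 2p`

The Frey curve `y² + xy = x³ + ((b^p - 1 - a^p)/4) x² - (a^p b^p / 16) x` has, over any
valuation ring `A` above an odd prime `q ≠ p`, either good reduction (`q ∤ abc`) or nodal
reduction with `v(κ) = v(n)^p` for `n ∈ {a, b, c}` the variable divisible by `q`.  Both cases are
handled by `Fermat.Agent.S05Lib.Assembly` (`good_fixed`, `node_fixed`); this file supplies the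
arithmetic of the Frey curve.
-/

set_option autoImplicit false
open WeierstrassCurve WeierstrassCurve.Affine WeierstrassCurve.Affine.Point
open CuspForm ModularFormClass UpperHalfPlane
open FreyPackage

namespace Fermat.Agent.S05

open Fermat.Agent.S51Lib.Pts Fermat.Agent.S05Lib

section Coeffs

variable {K : Type*} [Field K] [CharZero K] [Algebra ℚ K] (P : FreyPackage)

omit [CharZero K] in
theorem frey_a₁ : (P.freyCurve⁄K).a₁ = 1 := by
  simp [FreyPackage.freyCurve]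

theorem frey_a₂ : (P.freyCurve⁄K).a₂ = ((P.b : K) ^ P.p - 1 - (P.a : K) ^ P.p) / 4 := by
  simp [FreyPackage.freyCurve]

omit [CharZero K] in
theorem frey_a₃ : (P.freyCurve⁄K).a₃ = 0 := by
  simp [FreyPackage.freyCurve]

theorem frey_a₄ : (P.freyCurve⁄K).a₄ = -((P.a : K) ^ P.p * (P.b : K) ^ P.p) / 16 := by
  simp [FreyPackage.freyCurve]

omit [CharZero K] in
theorem frey_a₆ : (P.freyCurve⁄K).a₆ = 0 := by
  simp [FreyPackage.freyCurve]

omit [CharZero K] [Algebra ℚ K] in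
theorem frey_flt : (P.a : K) ^ P.p + (P.b : K) ^ P.p = (P.c : K) ^ P.p := by
  exact_mod_cast congrArg (Int.cast : ℤ → K) P.hFLT

/-- invariants of the Frey curve at the `2`-torsion abscissa `e = 0` -/
theorem frey_B6_zero : B6 (P.freyCurve⁄K) 0 = 0 := by
  simp only [B6, WeierstrassCurve.b₂, WeierstrassCurve.b₄, WeierstrassCurve.b₆, frey_a₁, frey_a₂,
    frey_a₃, frey_a₄, frey_a₆]
  ring

theorem frey_B2_zero : B2 (P.freyCurve⁄K) 0 = (P.b : K) ^ P.p - (P.a : K) ^ P.p := by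
  simp only [B2, WeierstrassCurve.b₂, frey_a₁, frey_a₂]
  ring

theorem frey_B4_zero :
    B4 (P.freyCurve⁄K) 0 = 2 * (-((P.a : K) ^ P.p * (P.b : K) ^ P.p) / 16) := by
  simp only [B4, WeierstrassCurve.b₂, WeierstrassCurve.b₄, frey_a₁, frey_a₂, frey_a₃, frey_a₄]
  ring

/-- invariants of the Frey curve at the `2`-torsion abscissa `e = a^p / 4` -/
theorem frey_B6_a : B6 (P.freyCurve⁄K) ((P.a : K) ^ P.p / 4) = 0 := by
  simp only [B6, WeierstrassCurve.b₂, WeierstrassCurve.b₄, WeierstrassCurve.b₆, frey_a₁, frey_a₂,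
    frey_a₃, frey_a₄, frey_a₆]
  ring

theorem frey_B2_a :
    B2 (P.freyCurve⁄K) ((P.a : K) ^ P.p / 4) = (P.c : K) ^ P.p + (P.a : K) ^ P.p := by
  simp only [B2, WeierstrassCurve.b₂, frey_a₁, frey_a₂, ← frey_flt]
  ring

theorem frey_B4_a :
    B4 (P.freyCurve⁄K) ((P.a : K) ^ P.p / 4) = 2 * ((P.a : K) ^ P.p * (P.c : K) ^ P.p / 16) := by
  simp only [B4, WeierstrassCurve.b₂, WeierstrassCurve.b₄, frey_a₁, frey_a₂, frey_a₃, frey_a₄,
    ← frey_flt]
  ring

theorem frey_Δ : (P.freyCurve⁄K).Δ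
    = ((P.a : K) ^ P.p * (P.b : K) ^ P.p * (P.c : K) ^ P.p) ^ 2 / 256 := by
  simp only [WeierstrassCurve.Δ, WeierstrassCurve.b₂, WeierstrassCurve.b₄, WeierstrassCurve.b₆,
    WeierstrassCurve.b₈, frey_a₁, frey_a₂, frey_a₃, frey_a₄, frey_a₆, ← frey_flt]
  ring

theorem frey_Δ_ne_zero : (P.freyCurve⁄K).Δ ≠ 0 := by
  rw [frey_Δ]
  have ha : (P.a : K) ≠ 0 := Int.cast_ne_zero.2 P.ha0
  have hb : (P.b : K) ≠ 0 := Int.cast_ne_zero.2 P.hb0
  have hc : (P.c : K) ≠ 0 := Int.cast_ne_zero.2 P.hc0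
  exact div_ne_zero (pow_ne_zero 2 (mul_ne_zero (mul_ne_zero (pow_ne_zero _ ha)
    (pow_ne_zero _ hb)) (pow_ne_zero _ hc))) (by norm_num)

end Coeffs

section Val

variable {K : Type*} [Field K] (A : ValuationSubring K) {q : ℕ}

/-- integers not divisible by `q` are units of a valuation ring above `q` -/
theorem val_eq_one_of_not_dvd (hq : q.Prime) (hA : (q : K) ∈ A.nonunits) {n : ℤ}
    (hn : ¬ (q : ℤ) ∣ n) : A.valuation (n : K) = 1 :=
  Inertia.valuation_intCast_eq_one A hA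
    ((Nat.prime_iff_prime_int.1 hq).irreducible.coprime_iff_not_dvd.2 hn).symm

/-- integers divisible by `q` are nonunits of a valuation ring above `q` -/
theorem val_lt_one_of_dvd (hA : (q : K) ∈ A.nonunits) {n : ℤ} (hn : (q : ℤ) ∣ n) :
    A.valuation (n : K) < 1 := by
  obtain ⟨m, rfl⟩ := hn
  have h1 : A.valuation (q : K) < 1 := A.mem_nonunits_iff.1 hA
  have h2 : A.valuation (m : K) ≤ 1 := (A.valuation_le_one_iff _).2 (intCast_mem A m)
  push_cast
  rw [map_mul, mul_comm]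
  exact mul_lt_one_of_nonneg_of_lt_one_right h2 zero_le h1

theorem div_mem_of_val_eq_one {x y : K} (hx : x ∈ A) (hy : A.valuation y = 1) : x / y ∈ A := by
  refine (A.valuation_le_one_iff _).1 ?_
  rw [map_div₀, hy, div_one]
  exact (A.valuation_le_one_iff _).2 hx

theorem not_dvd_of_gcd_eq_one (hq : q.Prime) {m n : ℤ} (h : gcd m n = 1) (hm : (q : ℤ) ∣ m) :
    ¬ (q : ℤ) ∣ n := by
  intro hn
  have h1 : (q : ℤ) ∣ gcd m n := dvd_gcd hm hn
  rw [h] at h1
  have h2 : q ∣ 1 := by exact_mod_cast h1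
  exact hq.ne_one (Nat.dvd_one.1 h2)

end Val

/-- inertia at `q ∤ 2p` fixes the `p`-torsion of the Frey curve -/
theorem frey_fixed {K : Type*} [Field K] [DecidableEq K] [CharZero K] [Algebra ℚ K] [IsAlgClosed K]
    (P : FreyPackage) {q : ℕ} (hq : q.Prime) (hq2 : q ≠ 2) (hqp : q ≠ P.p)
    (A : ValuationSubring K) (hA : (q : K) ∈ A.nonunits) {σ : K ≃ₐ[ℚ] K}
    (hσ : σ ∈ A.inertiaSubgroupIn ℚ)
    (Pt : (P.freyCurve⁄K).toAffine.Point) (hpP : P.p • Pt = 0) : σ • Pt = Pt := by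
  have h2 : A.valuation (2 : K) = 1 := by
    have h := val_eq_one_of_not_dvd A hq hA (n := 2) (by
      intro hd
      have h3 : q ∣ 2 := by exact_mod_cast hd
      exact hq2 ((Nat.prime_dvd_prime_iff_eq hq Nat.prime_two).1 h3))
    exact_mod_cast h
  have hpv : A.valuation (P.p : K) = 1 := by
    have h := val_eq_one_of_not_dvd A hq hA (n := (P.p : ℤ)) (by
      intro hd
      have h3 : q ∣ P.p := by exact_mod_cast hd
      exact hqp ((Nat.prime_dvd_prime_iff_eq hq P.pp).1 h3))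
    exact_mod_cast h
  have h4 : A.valuation (4 : K) = 1 := by
    have : (4 : K) = 2 ^ 2 := by norm_num
    rw [this, map_pow, h2, one_pow]
  have h16 : A.valuation (16 : K) = 1 := by
    have : (16 : K) = 2 ^ 4 := by norm_num
    rw [this, map_pow, h2, one_pow]
  have haA : (P.a : K) ∈ A := intCast_mem A P.a
  have hbA : (P.b : K) ∈ A := intCast_mem A P.b
  have hcA : (P.c : K) ∈ A := intCast_mem A P.c
  have hαA : (P.a : K) ^ P.p ∈ A := pow_mem haA _
  have hβA : (P.b : K) ^ P.p ∈ A := pow_mem hbA _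
  have ha₁ : (P.freyCurve⁄K).a₁ ∈ A := by rw [frey_a₁]; exact one_mem A
  have ha₂ : (P.freyCurve⁄K).a₂ ∈ A := by
    rw [frey_a₂]
    exact div_mem_of_val_eq_one A (sub_mem (sub_mem hβA (one_mem A)) hαA) h4
  have ha₃ : (P.freyCurve⁄K).a₃ ∈ A := by rw [frey_a₃]; exact zero_mem A
  have ha₄ : (P.freyCurve⁄K).a₄ ∈ A := by
    rw [frey_a₄]
    exact div_mem_of_val_eq_one A (neg_mem (mul_mem hαA hβA)) h16
  have ha₆ : (P.freyCurve⁄K).a₆ ∈ A := by rw [frey_a₆]; exact zero_mem A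
  have ha0 : (P.a : K) ≠ 0 := Int.cast_ne_zero.2 P.ha0
  have hb0 : (P.b : K) ≠ 0 := Int.cast_ne_zero.2 P.hb0
  have hc0 : (P.c : K) ≠ 0 := Int.cast_ne_zero.2 P.hc0
  have hp3 : 3 ≤ P.p := le_trans (by norm_num) P.hp5
  have hΔ := frey_Δ_ne_zero (K := K) P
  by_cases hqa : (q : ℤ) ∣ P.a
  · -- `q ∣ a`: node at `e = 0`
    have hva : A.valuation (P.a : K) < 1 := val_lt_one_of_dvd A hA hqa
    have hvb : A.valuation (P.b : K) = 1 :=
      val_eq_one_of_not_dvd A hq hA (not_dvd_of_gcd_eq_one hq P.hgcdab hqa)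
    have hvα : A.valuation ((P.a : K) ^ P.p) < 1 := by
      rw [map_pow]; exact pow_lt_one₀ zero_le hva P.hp0
    have hvβ : A.valuation ((P.b : K) ^ P.p) = 1 := by rw [map_pow, hvb, one_pow]
    exact Assembly.node_fixed P.freyCurve A hσ ha₁ ha₂ ha₃ ha₄ ha₆ (e := 0)
      (β := (P.b : K) ^ P.p - (P.a : K) ^ P.p)
      (κ := -((P.a : K) ^ P.p * (P.b : K) ^ P.p) / 16) (r := (P.a : K) ^ 2) (n := (P.a : K))
      (zero_mem A) (map_zero σ) (by rw [map_pow, map_intCast])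
      (frey_B6_zero P) (frey_B2_zero P) (frey_B4_zero P) h2
      (by rw [Valuation.map_sub_eq_of_lt_left _ (by rw [hvβ]; exact hvα), hvβ])
      ha0 hva P.pp hp3 hpv
      (by rw [map_div₀, Valuation.map_neg, map_mul, hvβ, mul_one, h16, div_one, map_pow])
      (map_pow _ _ _) (exists_point _ hΔ _) Pt hpP
  by_cases hqb : (q : ℤ) ∣ P.b
  · -- `q ∣ b`: node at `e = 0`
    have hvb : A.valuation (P.b : K) < 1 := val_lt_one_of_dvd A hA hqb
    have hva : A.valuation (P.a : K) = 1 := val_eq_one_of_not_dvd A hq hA hqa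
    have hvβ : A.valuation ((P.b : K) ^ P.p) < 1 := by
      rw [map_pow]; exact pow_lt_one₀ zero_le hvb P.hp0
    have hvα : A.valuation ((P.a : K) ^ P.p) = 1 := by rw [map_pow, hva, one_pow]
    exact Assembly.node_fixed P.freyCurve A hσ ha₁ ha₂ ha₃ ha₄ ha₆ (e := 0)
      (β := (P.b : K) ^ P.p - (P.a : K) ^ P.p)
      (κ := -((P.a : K) ^ P.p * (P.b : K) ^ P.p) / 16) (r := (P.b : K) ^ 2) (n := (P.b : K))
      (zero_mem A) (map_zero σ) (by rw [map_pow, map_intCast])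
      (frey_B6_zero P) (frey_B2_zero P) (frey_B4_zero P) h2
      (by rw [Valuation.map_sub_eq_of_lt_right _ (by rw [hvα]; exact hvβ), hvα])
      hb0 hvb P.pp hp3 hpv
      (by rw [map_div₀, Valuation.map_neg, map_mul, hvα, one_mul, h16, div_one, map_pow])
      (map_pow _ _ _) (exists_point _ hΔ _) Pt hpP
  by_cases hqc : (q : ℤ) ∣ P.c
  · -- `q ∣ c`: node at `e = a^p / 4`
    have hvc : A.valuation (P.c : K) < 1 := val_lt_one_of_dvd A hA hqc
    have hva : A.valuation (P.a : K) = 1 := val_eq_one_of_not_dvd A hq hA hqa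
    have hvγ : A.valuation ((P.c : K) ^ P.p) < 1 := by
      rw [map_pow]; exact pow_lt_one₀ zero_le hvc P.hp0
    have hvα : A.valuation ((P.a : K) ^ P.p) = 1 := by rw [map_pow, hva, one_pow]
    exact Assembly.node_fixed P.freyCurve A hσ ha₁ ha₂ ha₃ ha₄ ha₆ (e := (P.a : K) ^ P.p / 4)
      (β := (P.c : K) ^ P.p + (P.a : K) ^ P.p)
      (κ := (P.a : K) ^ P.p * (P.c : K) ^ P.p / 16) (r := (P.c : K) ^ 2) (n := (P.c : K))
      (div_mem_of_val_eq_one A hαA h4)
      (by rw [map_div₀, map_pow, map_intCast, map_ofNat]) (by rw [map_pow, map_intCast])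
      (frey_B6_a P) (frey_B2_a P) (frey_B4_a P) h2
      (by rw [Valuation.map_add_eq_of_lt_right _ (by rw [hvα]; exact hvγ), hvα])
      hc0 hvc P.pp hp3 hpv
      (by rw [map_div₀, map_mul, hvα, one_mul, h16, div_one, map_pow])
      (map_pow _ _ _) (exists_point _ hΔ _) Pt hpP
  · -- `q ∤ abc`: good reduction
    have hva : A.valuation (P.a : K) = 1 := val_eq_one_of_not_dvd A hq hA hqa
    have hvb : A.valuation (P.b : K) = 1 := val_eq_one_of_not_dvd A hq hA hqb
    have hvc : A.valuation (P.c : K) = 1 := val_eq_one_of_not_dvd A hq hA hqc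
    have hdisc : ((P.b : K) ^ P.p - (P.a : K) ^ P.p) ^ 2
        - 64 * (-((P.a : K) ^ P.p * (P.b : K) ^ P.p) / 16) = ((P.c : K) ^ P.p) ^ 2 := by
      rw [← frey_flt]; ring
    exact Assembly.good_fixed P.freyCurve A hσ ha₁ ha₂ ha₃ ha₄ ha₆ (e := 0)
      (β := (P.b : K) ^ P.p - (P.a : K) ^ P.p)
      (κ := -((P.a : K) ^ P.p * (P.b : K) ^ P.p) / 16)
      (zero_mem A) (frey_B6_zero P) (frey_B2_zero P) (frey_B4_zero P) h2
      (sub_mem hβA hαA)
      (by rw [map_div₀, Valuation.map_neg, map_mul, map_pow, map_pow, hva, hvb, one_pow,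
        mul_one, h16, div_one])
      (by rw [hdisc, map_pow, map_pow, hvc, one_pow, one_pow])
      hpv Pt hpP

theorem result (P : FreyPackage) {q : ℕ} (hq : q.Prime) (hq2 : q ≠ 2) (hqp : q ≠ P.p) : P.GaloisRepUnramifiedAt q := by
  intro A hA σ hσ x
  apply Subtype.ext
  have hx : (P.p : ℤ) • x.1 = 0 := (Submodule.mem_torsionBy_iff _ _).1 x.2
  rw [natCast_zsmul] at hx
  exact frey_fixed P hq hq2 hqp A hA hσ x.1 hx

end Fermat.Agent.S05
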