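import Fermat.Statements.S07
import Fermat.Prelude.Thm_ModularForm_sturm_bound_Gamma0
import Fermat.Prelude.Thm_CongruenceSubgroup_one_mem_strictPeriods_Gamma0

set_option autoImplicit false
open WeierstrassCurve WeierstrassCurve.Affine WeierstrassCurve.Affine.Point
open CuspForm ModularFormClass UpperHalfPlane
open ModularForm

namespace Fermat.Agent.S07

open scoped MatrixGroups

/-- The lower-left unipotent matrix of `SL(2, ℤ)`. -/
def lowerUni : SL(2, ℤ) := ⟨!![1, 0; 1, 1], by simp [Matrix.det_fin_two]⟩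

theorem S_mul_apply_one_zero (x : SL(2, ℤ)) : (ModularGroup.S * x) 1 0 = x 0 0 := by
  show (ModularGroup.S * x).1 1 0 = x.1 0 0
  rw [Matrix.SpecialLinearGroup.coe_mul, Matrix.mul_apply, Fin.sum_univ_two]
  simp [ModularGroup.S]

theorem lowerUni_mul_apply_one_zero (x : SL(2, ℤ)) :
    (lowerUni * x) 1 0 = x 0 0 + x 1 0 := by
  show (lowerUni * x).1 1 0 = x.1 0 0 + x.1 1 0
  rw [Matrix.SpecialLinearGroup.coe_mul, Matrix.mul_apply, Fin.sum_univ_two]
  simp [lowerUni]

/-- `Γ₀(2)` has index at most `3` in `SL(2, ℤ)`: the cosets of `1`, `S⁻¹` and the inverse of the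
lower unipotent matrix cover everything. -/
theorem index_Gamma0_two_le : (CongruenceSubgroup.Gamma0 2).index ≤ 3 := by
  classical
  let g : Fin 3 → SL(2, ℤ) := ![1, ModularGroup.S⁻¹, lowerUni⁻¹]
  have hsurj : Function.Surjective
      (fun i : Fin 3 => (QuotientGroup.mk (g i) : SL(2, ℤ) ⧸ CongruenceSubgroup.Gamma0 2)) := by
    intro q
    induction q using QuotientGroup.induction_on with
    | H x =>
      by_cases hc : (2 : ℤ) ∣ x 1 0
      · refine ⟨0, ?_⟩
        rw [QuotientGroup.eq]
        simp only [g, Matrix.cons_val_zero, inv_one, one_mul]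
        rw [CongruenceSubgroup.Gamma0_mem]
        exact (ZMod.intCast_zmod_eq_zero_iff_dvd _ 2).mpr hc
      · by_cases ha : (2 : ℤ) ∣ x 0 0
        · refine ⟨1, ?_⟩
          rw [QuotientGroup.eq, CongruenceSubgroup.Gamma0_mem]
          rw [ZMod.intCast_zmod_eq_zero_iff_dvd]
          have h0 : (g 1)⁻¹ = ModularGroup.S := inv_inv _
          rw [h0, S_mul_apply_one_zero]
          simpa using ha
        · refine ⟨2, ?_⟩
          rw [QuotientGroup.eq, CongruenceSubgroup.Gamma0_mem]
          rw [ZMod.intCast_zmod_eq_zero_iff_dvd]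
          have h0 : (g 2)⁻¹ = lowerUni := inv_inv _
          rw [h0, lowerUni_mul_apply_one_zero]
          push_cast
          omega
  have := Nat.card_le_card_of_surjective _ hsurj
  simpa [Subgroup.index] using this

theorem result (f : CuspForm (CongruenceSubgroup.Gamma0 2) 2) : f = 0 := by
  apply CuspForm.toModularFormₗ_injective
  rw [_root_.map_zero]
  apply ModularForm.sturm_bound_Gamma0 2
  intro n hn
  have hidx : (CongruenceSubgroup.Gamma0 2).index ≤ 3 := index_Gamma0_two_le
  have hn0 : n = 0 := by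
    have h2 : ((2 : ℤ) * ((CongruenceSubgroup.Gamma0 2).index : ℤ)).toNat / 12 = 0 := by
      omega
    rw [h2] at hn
    exact Nat.le_zero.mp hn
  subst hn0
  exact CuspFormClass.qExpansion_coeff_zero f one_pos
    (CongruenceSubgroup.one_mem_strictPeriods_Gamma0 2)

end Fermat.Agent.S07
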