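-- Statement S10 (row 9): a Frey package with exponent 5, 7 or 13 does not exist, because
-- Fermat's last theorem holds for these exponents (Kummer: the cyclotomic ring of integers is
-- principal, Kummer's lemma holds, first case by Sophie Germain), so the statement holds
-- vacuously.
import Fermat.Statements.S10
import Fermat.Agent.KummerLib.FLT
import Fermat.Agent.KummerLib.PID7
import Fermat.Agent.KummerLib.PID13
import Fermat.Agent.KummerLib.KummerUnits5
import Fermat.Agent.KummerLib.KummerUnits7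
import Fermat.Agent.KummerLib.KummerUnits13

set_option autoImplicit false
open WeierstrassCurve WeierstrassCurve.Affine WeierstrassCurve.Affine.Point
open CuspForm ModularFormClass UpperHalfPlane
open FreyPackage

namespace Fermat.Agent.S10

open Fermat.Agent.KummerLib in
/-- Fermat's last theorem for the exponent `5`. -/
theorem flt_five {a b c : ℤ} (ha : a ≠ 0) (hb : b ≠ 0) (hc : c ≠ 0) (hab : gcd a b = 1) :
    a ^ 5 + b ^ 5 ≠ c ^ 5 := by
  have : Fact (Nat.Prime 5) := ⟨by norm_num⟩
  have hcyc : IsCyclotomicExtension {5} ℚ (CyclotomicField 5 ℚ) :=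
    (inferInstance : @IsCyclotomicExtension {5} ℚ (CyclotomicField 5 ℚ) _ _
      (CyclotomicField.algebra 5 ℚ))
  have := IsCyclotomicExtension.Rat.five_pid (CyclotomicField 5 ℚ)
  exact FLT.flt_of_cyclotomicField (p := 5) (by norm_num)
    (KummerUnits5.kummerLemma_five _) SophieGermain.caseI_five ha hb hc hab

open Fermat.Agent.KummerLib in
/-- Fermat's last theorem for the exponent `7`. -/
theorem flt_seven {a b c : ℤ} (ha : a ≠ 0) (hb : b ≠ 0) (hc : c ≠ 0) (hab : gcd a b = 1) :
    a ^ 7 + b ^ 7 ≠ c ^ 7 := by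
  have : Fact (Nat.Prime 7) := ⟨by norm_num⟩
  have hcyc : IsCyclotomicExtension {7} ℚ (CyclotomicField 7 ℚ) :=
    (inferInstance : @IsCyclotomicExtension {7} ℚ (CyclotomicField 7 ℚ) _ _
      (CyclotomicField.algebra 7 ℚ))
  have := PID7.pid_seven (CyclotomicField 7 ℚ)
  exact FLT.flt_of_cyclotomicField (p := 7) (by norm_num)
    (KummerUnits7.kummerLemma_seven _) SophieGermain.caseI_seven ha hb hc hab

open Fermat.Agent.KummerLib in
/-- Fermat's last theorem for the exponent `13`. -/
theorem flt_thirteen {a b c : ℤ} (ha : a ≠ 0) (hb : b ≠ 0) (hc : c ≠ 0) (hab : gcd a b = 1) :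
    a ^ 13 + b ^ 13 ≠ c ^ 13 := by
  have : Fact (Nat.Prime 13) := ⟨by norm_num⟩
  have hcyc : IsCyclotomicExtension {13} ℚ (CyclotomicField 13 ℚ) :=
    (inferInstance : @IsCyclotomicExtension {13} ℚ (CyclotomicField 13 ℚ) _ _
      (CyclotomicField.algebra 13 ℚ))
  have := PID13.pid_thirteen (CyclotomicField 13 ℚ)
  exact FLT.flt_of_cyclotomicField (p := 13) (by norm_num)
    (KummerUnits13.kummerLemma_thirteen _) SophieGermain.caseI_thirteen ha hb hc hab

theorem result (P : FreyPackage) (hp : P.p = 5 ∨ P.p = 7 ∨ P.p = 13) : ¬ HasGaloisStableCofixedLine (K := AlgebraicClosure ℚ) ℚ P.freyCurve P.p := by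
  exfalso
  have h := P.hFLT
  rcases hp with hp | hp | hp
  · rw [hp] at h
    exact flt_five P.ha0 P.hb0 P.hc0 P.hgcdab h
  · rw [hp] at h
    exact flt_seven P.ha0 P.hb0 P.hc0 P.hgcdab h
  · rw [hp] at h
    exact flt_thirteen P.ha0 P.hb0 P.hc0 P.hgcdab h

end Fermat.Agent.S10
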