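-- Statement S11 (row 10): a Frey package with exponent 11 does not exist, because Fermat's last
-- theorem holds for the exponent 11 (Kummer: the 11-th cyclotomic ring of integers is principal,
-- Kummer's lemma holds, first case by Sophie Germain), so the statement holds vacuously.
import Fermat.Statements.S11
import Fermat.Agent.KummerLib.FLT
import Fermat.Agent.KummerLib.PID11
import Fermat.Agent.KummerLib.KummerUnits11

set_option autoImplicit false
open WeierstrassCurve WeierstrassCurve.Affine WeierstrassCurve.Affine.Point
open CuspForm ModularFormClass UpperHalfPlane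
open FreyPackage

namespace Fermat.Agent.S11

open Fermat.Agent.KummerLib in
/-- Fermat's last theorem for the exponent `11`. -/
theorem flt_eleven {a b c : ℤ} (ha : a ≠ 0) (hb : b ≠ 0) (hc : c ≠ 0) (hab : gcd a b = 1) :
    a ^ 11 + b ^ 11 ≠ c ^ 11 := by
  have : Fact (Nat.Prime 11) := ⟨by norm_num⟩
  have hcyc : IsCyclotomicExtension {11} ℚ (CyclotomicField 11 ℚ) :=
    (inferInstance : @IsCyclotomicExtension {11} ℚ (CyclotomicField 11 ℚ) _ _
      (CyclotomicField.algebra 11 ℚ))
  have := PID11.pid_eleven (CyclotomicField 11 ℚ)
  exact FLT.flt_of_cyclotomicField (p := 11) (by norm_num)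
    (KummerUnits11.kummerLemma_eleven _) SophieGermain.caseI_eleven ha hb hc hab

theorem result (P : FreyPackage) (hp : P.p = 11) : ¬ HasGaloisStableCofixedLine (K := AlgebraicClosure ℚ) ℚ P.freyCurve P.p := by
  exfalso
  have h := P.hFLT
  rw [hp] at h
  exact flt_eleven P.ha0 P.hb0 P.hc0 P.hgcdab h

end Fermat.Agent.S11
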