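import Fermat.Statements.S13
import Fermat.Agent.S13Lib.Assembly
import Fermat.Agent.S13Lib.IfaceB
import Fermat.Agent.S13Lib.MinkowskiIE
import Fermat.Agent.S13Lib.AtPDich
import Fermat.Agent.S13Lib.InertiaTwo
import Fermat.Agent.S13Lib.NoRat
import Fermat.Agent.S13Lib.PointCard
import Fermat.Agent.S13Lib.GenDisc
import Fermat.Agent.S13Lib.GenCard
import Fermat.Agent.S13Lib.GenProd

/-!
# S13: a reducible mod `p` representation of the Frey curve has a Galois-stable cofixed line

Elementary route (no Weil pairing, no formal groups, no Tate curve):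
* (IA) `#E[p](ℚ̄) = p²` and (IB) the product formula `(∏_{T ∈ E[p]∖0} x(T))² p⁴ = κ^(p²-1)`:
  heights on the function field of the curve (`S13Lib/Gen*`, `Height`, `SumFormula`, `TorsCount`,
  `PointCard`);
* (IC) dichotomy at `p` for a Galois-stable line (`S13Lib/AtP`, `AtPDich`);
* (ID1), (ID2) inertia at `2` is unipotent and there is no rational point of order `p`
  (`S13Lib/InertiaTwo`, `NoRat`);
* (IE) Minkowski: a normal subgroup of `Gal(ℚ̄/ℚ)` containing the fixer of a finite set and all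
  inertia groups is everything (`S13Lib/Minkowski*`, `InertiaLift`);
* S05: inertia at `q ∤ 2p` acts trivially;
* `S13Lib/Assembly`: the group theory.
-/

set_option autoImplicit false
open WeierstrassCurve WeierstrassCurve.Affine WeierstrassCurve.Affine.Point
open CuspForm ModularFormClass UpperHalfPlane
open FreyPackage

namespace Fermat.Agent.S13

open Fermat.Agent.S13Lib Fermat.Agent.S13Lib.Iface Fermat.Agent.S13Lib.IfaceB

/-- (IB) at the `2`-torsion abscissa `e = 0` of the Frey curve -/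
theorem iB_zero (P : FreyPackage) :
    IB P 0 (-((P.a : Qb) ^ P.p * (P.b : Qb) ^ P.p) / 16) := by
  have hΔ : (P.freyCurve⁄Qb).Δ ≠ 0 := Fermat.Agent.S05.frey_Δ_ne_zero P
  have hp2 : P.p ≠ 2 := by have := P.hp5; omega
  have h6 := Fermat.Agent.S05.frey_B6_zero (K := Qb) P
  have hβ := Fermat.Agent.S05.frey_B2_zero (K := Qb) P
  have hκ := Fermat.Agent.S05.frey_B4_zero (K := Qb) P
  have hκ0 := GenDisc.kappa_ne_zero (P.freyCurve⁄Qb) two_ne_zero hΔ 0 _ _ h6 hβ hκ
  have hdisc := GenDisc.disc_ne (P.freyCurve⁄Qb) two_ne_zero hΔ 0 _ _ h6 hβ hκ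
  obtain ⟨K, _, _, G, _, ξ, ι, Pg, w, h⟩ :=
    GenPointK.exists_genK (P.freyCurve⁄Qb) hΔ 0 _ _ h6 hβ hκ
  exact GenProd.prod_formula h hκ0 (GenVals.contHyp h) (GenTableK.table h hκ0 hdisc) P.pp hp2
    (GenCard.card_torsion h hκ0 hdisc P.pp.pos)

theorem result (P : FreyPackage) (hred : ¬ GaloisRepIsIrreducible (K := AlgebraicClosure ℚ) ℚ P.freyCurve P.p) : HasGaloisStableCofixedLine (K := AlgebraicClosure ℚ) ℚ P.freyCurve P.p := by
  have ia : IA P := PointCard.iA P
  exact Assembly.hasCofixedLine P ia (AtPDich.ic_of_prod P ia (AtPDich.prod_of_ib P (iB_zero P)))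
    (InertiaTwo.iD1 P) (NoRat.iD2 P) MinkowskiIE.ie
    (fun q hq hq2 hqp => Fermat.Agent.S05.result P hq hq2 hqp) hred

end Fermat.Agent.S13
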