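-- S16: the index of the Eisenstein ideal in the integral Hecke algebra of weight 2 and prime
-- level p is the numerator n of (p - 1)/12 (Mazur).  Proof: Fermat/Agent/S16Lib (see Wire.lean).
import Fermat.Statements.S16
import Fermat.Agent.S16Lib.Wire

set_option autoImplicit false
open ModularCurve CuspForm
open ModularCurve

namespace Fermat.Agent.S16

theorem result
    (p : ℕ) [Fact p.Prime] :
    Nat.card (↥(heckeLatticeAlgebra p ∅) ⧸
        Ideal.map ((latticeRestrictHom p ∅).toRingHom.comp (heckeEvalForms p 2))
          (eisensteinIdeal p)) =
      eisensteinNumerator p :=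
  Fermat.Agent.S16Lib.Wire.main p

end Fermat.Agent.S16
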