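-- Statement S18 (row 17): for a prime ℓ not dividing N and a place above ℓ carrying reduction data
-- for X₀(N), a point of J₀(N) killed by some m prime to ℓ whose reduction mod ℓ vanishes is zero.
-- Proof: Fermat/Agent/RedLib (Step 0, descent to a number field, the abstract geometric theorem
-- AG_core on the t-line, and the Gauss-lattice provider for the modular tower).
import Fermat.Statements.S18
import Fermat.Agent.RedLib.Step0
import Fermat.Agent.RedLib.CoreAsm2
import Fermat.Agent.RedLib.CoreWire
import Fermat.Agent.RedLib.GenCoreFinal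

set_option autoImplicit false
open ModularCurve

namespace Fermat.Agent.S18

theorem result (N : ℕ) [NeZero N] {ℓ : ℕ}
    [Fact ℓ.Prime] (hℓN : ¬ ℓ ∣ N) (A : ValuationSubring (AlgebraicClosure ℚ)) (hA : A.LiesOverPrime ℓ)
    (h : ModularCurve.ReductionInputsModL A N) (m : ℕ) (hm : ¬ ℓ ∣ m) (z : ModularCurve.JZero N)
    (hmz : m • z = 0) (hz : ModularCurve.reductionModL A N z = 0) :
    z = 0 :=
  Fermat.Agent.RedLib.Step0.step0 N hℓN A hA
    (Fermat.Agent.RedLib.CoreAsm2.core_of_coreK2 N ℓ A (fun _ => ∅)
      (Fermat.Agent.RedLib.CoreWire.coreK2_of_genCore (A := A) N ℓ hA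
        (Fermat.Agent.RedLib.GenCoreFinal.genCore N ℓ hℓN)))
    h m hm z hmz hz

end Fermat.Agent.S18
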