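-- Statement S22: the Hecke algebra acting on cusp forms is a finite ℤ-module.
-- Proof: Eichler–Shimura style lattice of period functionals (see Fermat/Agent/S22Lib).
import Fermat.Statements.S22
import Fermat.Agent.S22Lib.Fin
import Fermat.Agent.S22Lib.Fg
import Fermat.Agent.S22Lib.Hecke
import Fermat.Agent.S22Lib.Sep

set_option autoImplicit false
open CuspForm

namespace Fermat.Agent.S22

theorem result (N : ℕ) [NeZero N] (k : ℤ) (S : Set ℕ) :
    Module.Finite ℤ (CuspForm.heckeAlgebra N k S) := by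
  by_cases hk : k ≤ 1
  · have h1 : Subsingleton (CuspForm (CongruenceSubgroup.Gamma0 N) k) :=
      ⟨fun f g => by
        rw [Fermat.Agent.S22Lib.Fin.eq_zero_of_le_one hk f,
          Fermat.Agent.S22Lib.Fin.eq_zero_of_le_one hk g]⟩
    have h2 : Subsingleton (Module.End ℂ (CuspForm (CongruenceSubgroup.Gamma0 N) k)) :=
      ⟨fun a b => LinearMap.ext fun x => Subsingleton.elim _ _⟩
    have h3 : Subsingleton (CuspForm.heckeAlgebra N k S) :=
      ⟨fun a b => Subtype.ext (Subsingleton.elim _ _)⟩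
    have h4 : Finite (CuspForm.heckeAlgebra N k S) := Finite.of_subsingleton
    exact Module.Finite.of_finite
  · obtain ⟨m, rfl⟩ : ∃ m : ℕ, k = (m : ℤ) + 2 := ⟨(k - 2).toNat, by omega⟩
    exact Fermat.Agent.S22Lib.Fin.finite_of_lattice S (Fermat.Agent.S22Lib.Lam N m)
      (Fermat.Agent.S22Lib.Fg.Lam_fg N m)
      (fun lam h f g => Fermat.Agent.S22Lib.Fin.Lam_add h f g)
      (by
        rintro lam hlam T (⟨ℓ, hℓ, hℓN, -, rfl⟩ | ⟨q, hqN, hq, -, rfl⟩)
        · exact Fermat.Agent.S22Lib.Hecke.Lam_heckeT hℓ hℓN hlam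
        · exact Fermat.Agent.S22Lib.Hecke.Lam_heckeU hqN hlam)
      (fun f hf => Fermat.Agent.S22Lib.Sep.Lam_sep f hf)

end Fermat.Agent.S22
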