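-- Statement S23: `S₂(Γ₀(N))` has an integral structure.
import Fermat.Statements.S23
import Fermat.Agent.S23Lib.Final
import Fermat.Agent.S23Lib.Conj
import Fermat.Agent.S23Lib.Distinct

set_option autoImplicit false
open CuspForm

namespace Fermat.Agent.S23

open Fermat.Agent.S23Lib in
theorem result (N : ℕ) [NeZero N] : CuspForm.HasIntegralStructure N 2 := by
  refine Final.hasIntegralStructure_of_twist N fun σ f => ?_
  obtain ⟨g, hg⟩ := Conj.exists_twist_of_primitive N σ (Distinct.deltaN N)
    (Distinct.deltaN_slash_Gamma0 N) (Distinct.deltaN_mdiff N) (Distinct.deltaN_bdd_slash N)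
    (Distinct.deltaN_qExpansion_map N LevelOne.discriminant_isRat (σ : ℂ →+* ℂ))
    (Distinct.deltaN_slash_ne N) (fun φ => LevelOne.levelOne_twist σ φ) f
  refine ⟨g, fun n => ?_⟩
  show (UpperHalfPlane.qExpansion 1 ⇑g).coeff n = σ ((UpperHalfPlane.qExpansion 1 ⇑f).coeff n)
  rw [hg, PowerSeries.coeff_map]
  rfl

end Fermat.Agent.S23
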