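import Fermat.Statements.S28
import Fermat.Agent.IgusaLib.Final28
import Fermat.Agent.IgusaLib.Descent
import Fermat.Agent.IgusaLib.QepA
import Fermat.Agent.IgusaLib.QepInt

set_option autoImplicit false
open AlgebraicGeometry CategoryTheory CategoryTheory.Limits ModularCurve ModularCurve.IgusaScheme
noncomputable section
set_option autoImplicit false
open ModularCurve ModularCurve.IgusaScheme

namespace Fermat.Agent.S28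

open Fermat.Agent.IgusaLib

/-- Constants of `ℤ_(ℓ)` lie in the Gauss ring. -/
theorem algebraMap_mem_Oint (ℓ : ℕ) [Fact ℓ.Prime] (a : Zl ℓ) :
    algebraMap ℚ (LaurentSeries ℚ) (a : ℚ) ∈ Oint ℓ := by
  have h : algebraMap ℚ (LaurentSeries ℚ) (a : ℚ) = HahnSeries.C (a : ℚ) := by
    rw [eq_ratCast, eq_ratCast (HahnSeries.C : ℚ →+* LaurentSeries ℚ)]
  rw [h]
  exact C_mem_Oint ℓ a

/-- The reduction of `j⁻¹`. -/
theorem rho_jq_inv (ℓ : ℕ) [Fact ℓ.Prime] (h : jq⁻¹ ∈ Oint ℓ) :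
    rho ℓ ⟨jq⁻¹, h⟩ = (jqModC (ZMod ℓ))⁻¹ := by
  have h1 : (⟨jq⁻¹, h⟩ : Oint ℓ) * ⟨jq, jq_mem_Oint ℓ⟩ = 1 :=
    Subtype.ext (inv_mul_cancel₀ jq_ne_zero)
  have h2 := congrArg (rho ℓ) h1
  rw [map_mul, map_one, rho_jq] at h2
  exact eq_inv_of_mul_eq_one_left h2

/-- **[INT]** on the finite chart: `O_v ∩ ℚ[j] ⊆ ℤ_(ℓ)[j]`. -/
theorem int_fin (ℓ : ℕ) [Fact ℓ.Prime] :
    Ov ℓ ⊓ (Algebra.adjoin ℚ {jq}).toSubring ≤ AJ ℓ jq := by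
  rintro x ⟨hxO, hxA⟩
  have hxA' : x ∈ Algebra.adjoin ℚ {jq} := hxA
  rw [Algebra.adjoin_singleton_eq_range_aeval] at hxA'
  obtain ⟨G, rfl⟩ := hxA'
  have htr : Transcendental (ZMod ℓ) (rho ℓ ⟨jq, jq_mem_Oint ℓ⟩) := by
    rw [rho_jq]
    exact QepB.transcendental_jqModC (ZMod ℓ)
  obtain ⟨G', hG'⟩ := QepB.exists_map_eq_of_aeval_mem ℓ (Oint ℓ) (rho ℓ) (algebraMap_mem_Oint ℓ)
    jq (jq_mem_Oint ℓ) htr G hxO.2
  exact mem_AJ.mpr ⟨G', by rw [hG']; rfl⟩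

/-- **[INT]** on the chart at infinity: `O_v ∩ ℚ[j⁻¹] ⊆ ℤ_(ℓ)[j⁻¹]`. -/
theorem int_inf (ℓ : ℕ) [Fact ℓ.Prime] :
    Ov ℓ ⊓ (Algebra.adjoin ℚ {jq⁻¹}).toSubring ≤ AJ ℓ jq⁻¹ := by
  rintro x ⟨hxO, hxA⟩
  have hxA' : x ∈ Algebra.adjoin ℚ {jq⁻¹} := hxA
  rw [Algebra.adjoin_singleton_eq_range_aeval] at hxA'
  obtain ⟨G, rfl⟩ := hxA'
  have htr : Transcendental (ZMod ℓ) (rho ℓ ⟨jq⁻¹, jq_inv_mem_Oint ℓ⟩) := by
    rw [rho_jq_inv]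
    exact transcendental_inv_of_transcendental _ (QepB.transcendental_jqModC (ZMod ℓ))
  obtain ⟨G', hG'⟩ := QepB.exists_map_eq_of_aeval_mem ℓ (Oint ℓ) (rho ℓ) (algebraMap_mem_Oint ℓ)
    jq⁻¹ (jq_inv_mem_Oint ℓ) htr G hxO.2
  exact mem_AJ.mpr ⟨G', by rw [hG']; rfl⟩

/-- **(Q2)**: the function field part of the Gauss ring is integral over `O_v`. -/
theorem integral_Ov (N : ℕ) [NeZero N] (ℓ : ℕ) [Fact ℓ.Prime] (hℓN : ¬ ℓ ∣ N)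
    (x : LaurentSeries ℚ) (hx : x ∈ modularFunctionFieldFull N) (hxO : x ∈ Oint ℓ) :
    IsIntegral ↥(Ov ℓ) x := by
  obtain ⟨m, hm, hind⟩ := ind_modl N ℓ hℓN
  exact integral_over_Ov_of_ind N ℓ m hm hind hx hxO

set_option maxHeartbeats 4000000 in
set_option synthInstance.maxHeartbeats 400000 in
theorem result
    (N : ℕ) [NeZero N] (ℓ : ℕ) [Fact ℓ.Prime] (hℓN : ¬ ℓ ∣ N)
    (K : Type) [Field K] [CharP K ℓ] [Algebra ↥(GaloisRep.ratLocalizedAt ℓ) K] :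
    IsIntegral ↑(pullback (igusaTo N ℓ)
      (Spec.map (CommRingCat.ofHom (algebraMap ↥(GaloisRep.ratLocalizedAt ℓ) K)))) :=
  igusa_isIntegral_of N ℓ K (integral_Ov N ℓ hℓN) (int_fin ℓ) (int_inf ℓ)

end Fermat.Agent.S28
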