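import Fermat.Statements.S49
import Fermat.Agent.S49Lib.Algebra
import Fermat.Agent.S49Lib.QExp
import Fermat.Agent.S49Lib.Arith
import Fermat.Prelude.Thm_CuspForm_mem_intLattice_of_mem_heckeAlgebra
import Fermat.Prelude.Thm_CuspForm_intLattice_fg

set_option autoImplicit false
open CuspForm EisensteinWeightOne CongruenceSubgroup ModularFormClass
open FLT FLT.AbstractIntegralStructure

namespace Fermat.Agent.S49

open Fermat.Agent.S49Lib

/-- Elements of the integral lattice have integer q-coefficients. -/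
theorem qCoeff_int_of_mem_intLattice {N : ℕ} {f : CuspForm (Gamma0 N) 2}
    (hf : f ∈ CuspForm.intLattice N 2) : ∀ n : ℕ, ∃ m : ℤ, qCoeff (⇑f) n = m := by
  unfold CuspForm.intLattice at hf
  induction hf using Submodule.span_induction with
  | mem x hx => exact hx
  | zero =>
    intro n
    refine ⟨0, ?_⟩
    have := qCoeff_smul (0 : ℂ) (0 : CuspForm (Gamma0 N) 2) n
    rw [zero_smul, zero_mul] at this
    rw [this, Int.cast_zero]
  | add x y _ _ hx hy =>
    intro n
    obtain ⟨a, ha⟩ := hx n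
    obtain ⟨b, hb⟩ := hy n
    exact ⟨a + b, by rw [qCoeff_add, ha, hb]; push_cast; ring⟩
  | smul c x _ hx =>
    intro n
    obtain ⟨a, ha⟩ := hx n
    refine ⟨c * a, ?_⟩
    rw [← Int.cast_smul_eq_zsmul ℂ c x, qCoeff_smul, ha]
    push_cast
    ring

theorem mem_intLattice_of_qCoeff_int {N : ℕ} {f : CuspForm (Gamma0 N) 2}
    (hf : ∀ n : ℕ, ∃ m : ℤ, qCoeff (⇑f) n = m) : f ∈ CuspForm.intLattice N 2 :=
  Submodule.subset_span hf

/-- A form all of whose q-coefficients are in `3ℤ` is `3` times a lattice element. -/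
theorem exists_eq_three_smul {N : ℕ} {g : CuspForm (Gamma0 N) 2}
    (hg : ∀ n : ℕ, ∃ m : ℤ, qCoeff (⇑g) n = 3 * (m : ℂ)) :
    ∃ y ∈ CuspForm.intLattice N 2, g = (3 : ℂ) • y := by
  refine ⟨(3 : ℂ)⁻¹ • g, mem_intLattice_of_qCoeff_int fun n => ?_, ?_⟩
  · obtain ⟨m, hm⟩ := hg n
    exact ⟨m, by rw [qCoeff_smul, hm]; field_simp⟩
  · rw [smul_smul, mul_inv_cancel₀ (by norm_num : (3 : ℂ) ≠ 0), one_smul]

/-- Multiplying by a power series congruent to `1` mod `3` does not change coefficients mod 3. -/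
theorem three_dvd_coeff_mul_sub (A E : PowerSeries ℤ) (hE0 : PowerSeries.coeff 0 E = 1)
    (hE : ∀ n, n ≠ 0 → (3 : ℤ) ∣ PowerSeries.coeff n E) (n : ℕ) :
    (3 : ℤ) ∣ PowerSeries.coeff n (A * E) - PowerSeries.coeff n A := by
  have hdec : E = 1 + PowerSeries.C (3 : ℤ) *
      PowerSeries.mk (fun n => if n = 0 then 0 else PowerSeries.coeff n E / 3) := by
    ext k
    rw [map_add, PowerSeries.coeff_C_mul, PowerSeries.coeff_mk, PowerSeries.coeff_one]
    by_cases hk : k = 0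
    · subst hk
      simp [hE0]
    · rw [if_neg hk, if_neg hk, zero_add, Int.mul_ediv_cancel' (hE k hk)]
  have : A * E - A = PowerSeries.C (3 : ℤ) *
      (A * PowerSeries.mk (fun n => if n = 0 then 0 else PowerSeries.coeff n E / 3)) := by
    conv_lhs => rw [hdec]
    ring
  rw [← map_sub, this, PowerSeries.coeff_C_mul]
  exact dvd_mul_right _ _

theorem result
    {N : ℕ} [NeZero N] (h : CuspForm.HasIntegralBasis N) {a : ℕ → ℤ}
    (heig : FormalHecke.IsEigensystem
      (fun ℓ => if ℓ ∣ N then 0 else ((chiNegThree ℓ : ℤ) : ℤ)) a)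
    (hreal : CuspForm.IsLatticeRealized N a) :
    ∃ (f : CuspForm (Gamma0 N) 2) (_ : f.IsNormalizedEigenform)
      (𝔪' : Ideal (integralClosure ℤ ℂ)), 𝔪'.IsMaximal ∧
      ((3 : ℕ) : integralClosure ℤ ℂ) ∈ 𝔪' ∧
      ∀ (ℓ : ℕ) (_ : ℓ.Prime) (_ : ¬ ℓ ∣ N),
        ∃ c : integralClosure ℤ ℂ, (c : ℂ) = ModularFormClass.qCoeff f ℓ ∧
          c - (a ℓ : integralClosure ℤ ℂ) ∈ 𝔪' := by
  classical
  have hLfg : (CuspForm.intLattice N 2).FG := CuspForm.intLattice_fg N 2
  have hLspan : Submodule.span ℂ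
      ((CuspForm.intLattice N 2 : Submodule ℤ (CuspForm (Gamma0 N) 2)) :
        Set (CuspForm (Gamma0 N) 2)) = ⊤ := by
    rw [eq_top_iff, ← h]
    apply Submodule.span_mono
    intro f hf
    apply mem_intLattice_of_qCoeff_int
    intro n
    obtain ⟨m, hm⟩ := Subring.mem_bot.mp (hf n)
    exact ⟨m, hm.symm⟩
  have hfd : FiniteDimensional ℂ (CuspForm (Gamma0 N) 2) := by
    obtain ⟨s, hs⟩ := hLfg
    refine ⟨⟨s, ?_⟩⟩
    rw [eq_top_iff, ← hLspan, Submodule.span_le, ← hs]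
    exact Submodule.span_le_restrictScalars ℤ ℂ _
  obtain ⟨f, hfint, af, haf, hcong⟩ := hreal
  -- congruence `af n ≡ a n mod 3`
  have hcong' : ∀ n, (3 : ℤ) ∣ af n - a n := by
    intro n
    have h1 := hcong n
    have h2 : (3 : ℤ) ∣ (bridgeProduct a).coeff n - a n := by
      have := three_dvd_coeff_mul_sub (PowerSeries.mk a) (e1Chi3In ℤ) ?_ ?_ n
      · simpa [bridgeProduct] using this
      · simp [e1Chi3In, e1Chi3]
      · intro k hk
        simp only [e1Chi3In, e1Chi3, PowerSeries.coeff_map, PowerSeries.coeff_mk, if_neg hk]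
        exact ⟨2 * sigmaChi k, by simp; ring⟩
    have := dvd_add h1 h2
    simpa using this
  have hfL : f ∈ CuspForm.intLattice N 2 :=
    mem_intLattice_of_qCoeff_int fun n => ⟨af n, (haf n).symm⟩
  -- the ideal of Hecke operators killing `f` modulo 3
  let J : Ideal (CuspForm.heckeAlgebra N 2 (∅ : Set ℕ)) :=
    { carrier := {t | ∀ n : ℕ, ∃ m : ℤ,
        qCoeff (⇑((t : Module.End ℂ (CuspForm (Gamma0 N) 2)) f)) n = 3 * (m : ℂ)}
      add_mem' := by
        intro s t hs ht n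
        obtain ⟨m₁, h₁⟩ := hs n
        obtain ⟨m₂, h₂⟩ := ht n
        refine ⟨m₁ + m₂, ?_⟩
        have : ((s + t : CuspForm.heckeAlgebra N 2 (∅ : Set ℕ)) :
            Module.End ℂ (CuspForm (Gamma0 N) 2)) f =
            (s : Module.End ℂ (CuspForm (Gamma0 N) 2)) f +
              (t : Module.End ℂ (CuspForm (Gamma0 N) 2)) f := rfl
        rw [this, qCoeff_add, h₁, h₂]
        push_cast
        ring
      zero_mem' := by
        intro n
        refine ⟨0, ?_⟩
        have : ((0 : CuspForm.heckeAlgebra N 2 (∅ : Set ℕ)) :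
            Module.End ℂ (CuspForm (Gamma0 N) 2)) f = (0 : ℂ) • f := by
          rw [zero_smul]; rfl
        rw [this, qCoeff_smul]
        simp
      smul_mem' := by
        intro c x hx n
        obtain ⟨y, hyL, hy⟩ := exists_eq_three_smul hx
        have hcy := CuspForm.mem_intLattice_of_mem_heckeAlgebra (by norm_num) c.2 hyL
        obtain ⟨m, hm⟩ := qCoeff_int_of_mem_intLattice hcy n
        refine ⟨m, ?_⟩
        have : ((c • x : CuspForm.heckeAlgebra N 2 (∅ : Set ℕ)) :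
            Module.End ℂ (CuspForm (Gamma0 N) 2)) f =
            (3 : ℂ) • ((c : Module.End ℂ (CuspForm (Gamma0 N) 2)) y) := by
          show (c : Module.End ℂ (CuspForm (Gamma0 N) 2))
            ((x : Module.End ℂ (CuspForm (Gamma0 N) 2)) f) = _
          rw [hy, map_smul]
        rw [this, qCoeff_smul, hm] }
  have hJ_ne_top : J ≠ ⊤ := by
    intro htop
    have h1 : (1 : CuspForm.heckeAlgebra N 2 (∅ : Set ℕ)) ∈ J := by rw [htop]; trivial
    obtain ⟨m, hm⟩ := h1 1
    have h1f : ((1 : CuspForm.heckeAlgebra N 2 (∅ : Set ℕ)) :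
        Module.End ℂ (CuspForm (Gamma0 N) 2)) f = f := rfl
    rw [h1f, ← haf 1] at hm
    have hm' : af 1 = 3 * m := by exact_mod_cast hm
    have h3 := hcong' 1
    rw [heig.1, hm'] at h3
    omega
  obtain ⟨𝔪, h𝔪max, hJ𝔪⟩ := Ideal.exists_le_maximal J hJ_ne_top
  -- a common eigenvector whose eigencharacter has kernel inside `𝔪`
  obtain ⟨g, μ, hg0, hμ, hμ𝔪⟩ := exists_eigenvector_ker_le
    (((CuspForm.heckeAlgebra N 2 (∅ : Set ℕ)).val :
        CuspForm.heckeAlgebra N 2 (∅ : Set ℕ) →ₐ[ℤ] Module.End ℂ (CuspForm (Gamma0 N) 2)) :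
      CuspForm.heckeAlgebra N 2 (∅ : Set ℕ) →+* Module.End ℂ (CuspForm (Gamma0 N) 2))
    𝔪 h𝔪max.isPrime
    (fun r hr => by
      have : r = 0 := Subtype.ext hr
      rw [this]
      exact 𝔪.zero_mem)
  have hμ' : ∀ r : CuspForm.heckeAlgebra N 2 (∅ : Set ℕ),
      (r : Module.End ℂ (CuspForm (Gamma0 N) 2)) g = μ r • g := hμ
  -- eigenvalues are algebraic integers
  have hint : ∀ r : CuspForm.heckeAlgebra N 2 (∅ : Set ℕ), IsIntegral ℤ (μ r) := by
    intro r
    obtain ⟨P, hPm, hP⟩ := isIntegral_of_stable_lattice (CuspForm.intLattice N 2) hLfg hLspan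
      (r : Module.End ℂ (CuspForm (Gamma0 N) 2))
      (fun x hx => CuspForm.mem_intLattice_of_mem_heckeAlgebra (by norm_num) r.2 hx)
    refine ⟨P, hPm, ?_⟩
    have hvec : Module.End.HasEigenvector (r : Module.End ℂ (CuspForm (Gamma0 N) 2)) (μ r) g :=
      ⟨Module.End.mem_eigenspace_iff.mpr (hμ' r), hg0⟩
    have h1 := Module.End.aeval_apply_of_hasEigenvector (p := P.map (algebraMap ℤ ℂ)) hvec
    rw [Polynomial.aeval_map_algebraMap, Polynomial.aeval_def, hP, LinearMap.zero_apply,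
      Polynomial.eval_map] at h1
    exact (smul_eq_zero.mp h1.symm).resolve_right hg0
  -- the eigencharacter with values in the ring of algebraic integers, and lying over
  let μ' : CuspForm.heckeAlgebra N 2 (∅ : Set ℕ) →+* integralClosure ℤ ℂ :=
    μ.codRestrict (integralClosure ℤ ℂ) hint
  let algT : Algebra (CuspForm.heckeAlgebra N 2 (∅ : Set ℕ)) (integralClosure ℤ ℂ) :=
    μ'.toAlgebra
  have hintT : Algebra.IsIntegral (CuspForm.heckeAlgebra N 2 (∅ : Set ℕ))
      (integralClosure ℤ ℂ) := by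
    refine ⟨fun z => ?_⟩
    obtain ⟨P, hPm, hP⟩ := integralClosure.isIntegral z
    refine ⟨P.map (Int.castRingHom _), hPm.map _, ?_⟩
    rw [Polynomial.eval₂_map]
    have hcomp : (algebraMap (CuspForm.heckeAlgebra N 2 (∅ : Set ℕ))
        (integralClosure ℤ ℂ)).comp (Int.castRingHom _) =
        algebraMap ℤ (integralClosure ℤ ℂ) := RingHom.ext_int _ _
    rw [hcomp]
    exact hP
  obtain ⟨Q, hQmax, hQ⟩ := Ideal.exists_ideal_over_maximal_of_isIntegral
    (S := integralClosure ℤ ℂ) 𝔪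
    (by
      intro x hx
      apply hμ𝔪
      have h0 : μ' x = 0 := hx
      exact congrArg Subtype.val h0)
  have hQmem : ∀ x : CuspForm.heckeAlgebra N 2 (∅ : Set ℕ), x ∈ J → μ' x ∈ Q := by
    intro x hx
    have hx𝔪 := hJ𝔪 hx
    rw [← hQ] at hx𝔪
    exact hx𝔪
  -- Hecke relations for the q-coefficients of `g`
  set A : ℕ → ℂ := fun n => qCoeff (⇑g) n with hA
  let lam : ℕ → ℂ := fun p =>
    if hp : p.Prime then
      if hpN : p ∣ N then μ (CuspForm.heckeAlgebra.U hp hpN (Set.notMem_empty p))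
      else μ (CuspForm.heckeAlgebra.T hp hpN (Set.notMem_empty p))
    else 0
  have RT : ∀ p : ℕ, p.Prime → ¬ p ∣ N → ∀ n : ℕ,
      A (n * p) + (if p ∣ n then (p : ℂ) * A (n / p) else 0) = lam p * A n := by
    intro p hp hpN n
    have h2 : CuspForm.heckeTLin 2 hp hpN g =
        μ (CuspForm.heckeAlgebra.T hp hpN (Set.notMem_empty p)) • g :=
      hμ' (CuspForm.heckeAlgebra.T hp hpN (Set.notMem_empty p))
    have h3 := congrArg (fun F : CuspForm (Gamma0 N) 2 => qCoeff (⇑F) n) h2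
    rw [qCoeff_heckeTLin, qCoeff_smul] at h3
    simp only [lam, dif_pos hp, dif_neg hpN]
    exact h3
  have RU : ∀ p : ℕ, p.Prime → p ∣ N → ∀ n : ℕ, A (n * p) = lam p * A n := by
    intro p hp hpN n
    have h2 : CuspForm.heckeULin 2 hpN g =
        μ (CuspForm.heckeAlgebra.U hp hpN (Set.notMem_empty p)) • g :=
      hμ' (CuspForm.heckeAlgebra.U hp hpN (Set.notMem_empty p))
    have h3 := congrArg (fun F : CuspForm (Gamma0 N) 2 => qCoeff (⇑F) n) h2
    rw [qCoeff_heckeULin hp, qCoeff_smul] at h3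
    simp only [lam, dif_pos hp, dif_pos hpN]
    exact h3
  have hA1 : A 1 ≠ 0 := by
    intro h1
    apply hg0
    apply eq_zero_of_qCoeff_eq_zero
    exact coeff_vanish N A lam RT RU (qCoeff_cusp_zero g) h1
  -- the normalised eigenform
  set f' : CuspForm (Gamma0 N) 2 := (A 1)⁻¹ • g with hf'
  set B : ℕ → ℂ := fun n => qCoeff (⇑f') n with hB
  have hBA : ∀ n, B n = (A 1)⁻¹ * A n := fun n => qCoeff_smul _ _ _
  have hB1 : B 1 = 1 := by rw [hBA]; exact inv_mul_cancel₀ hA1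
  have RT' : ∀ p : ℕ, p.Prime → ¬ p ∣ N → ∀ n : ℕ,
      B (n * p) + (if p ∣ n then (p : ℂ) * B (n / p) else 0) = lam p * B n := by
    intro p hp hpN n
    have h1 := RT p hp hpN n
    rw [hBA, hBA, hBA]
    split_ifs at h1 ⊢ with hd
    · linear_combination (A 1)⁻¹ * h1
    · linear_combination (A 1)⁻¹ * h1
  have RU' : ∀ p : ℕ, p.Prime → p ∣ N → ∀ n : ℕ, B (n * p) = lam p * B n := by
    intro p hp hpN n
    have h1 := RU p hp hpN n
    rw [hBA, hBA]
    linear_combination (A 1)⁻¹ * h1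
  have hBp : ∀ p : ℕ, p.Prime → B p = lam p := coeff_prime N B lam RT' RU' hB1
  have hnorm : f'.IsNormalizedEigenform :=
    { qCoeff_one := hB1
      qCoeff_mul_of_coprime := coeff_mult N B lam RT' RU' hB1
      qCoeff_prime_pow_of_not_dvd := by
        intro p r hp hpN
        have h1 := RT' p hp hpN (p ^ (r + 1))
        rw [if_pos (dvd_pow_self p (Nat.succ_ne_zero r)), ← pow_succ,
          show p ^ (r + 1) / p = p ^ r by
            rw [pow_succ]; exact Nat.mul_div_cancel _ hp.pos, ← hBp p hp] at h1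
        show B (p ^ (r + 2)) = B p * B (p ^ (r + 1)) - (p : ℂ) * B (p ^ r)
        linear_combination h1
      qCoeff_prime_pow_of_dvd := by
        intro p r hp hpN
        have h1 := RU' p hp hpN (p ^ (r + 1))
        rw [← pow_succ, ← hBp p hp] at h1
        exact h1 }
  have hcast : ∀ (z : ℤ) (F : CuspForm (Gamma0 N) 2),
      (((z : ℤ) : CuspForm.heckeAlgebra N 2 (∅ : Set ℕ)) :
        Module.End ℂ (CuspForm (Gamma0 N) 2)) F = (z : ℂ) • F := by
    intro z F
    have e1 : (((z : ℤ) : CuspForm.heckeAlgebra N 2 (∅ : Set ℕ)) :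
        Module.End ℂ (CuspForm (Gamma0 N) 2)) =
        ((z : ℤ) : Module.End ℂ (CuspForm (Gamma0 N) 2)) := rfl
    rw [e1, Module.End.intCast_apply, Int.cast_smul_eq_zsmul ℂ]
  refine ⟨f', hnorm, Q, hQmax, ?_, ?_⟩
  · -- `3 ∈ Q`
    have h3J : ((3 : ℤ) : CuspForm.heckeAlgebra N 2 (∅ : Set ℕ)) ∈ J := by
      intro n
      refine ⟨af n, ?_⟩
      have h3f : (((3 : ℤ) : CuspForm.heckeAlgebra N 2 (∅ : Set ℕ)) :
          Module.End ℂ (CuspForm (Gamma0 N) 2)) f = (3 : ℂ) • f := by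
        rw [hcast]
        norm_num
      rw [h3f, qCoeff_smul, haf]
    have h3Q := hQmem _ h3J
    rw [map_intCast] at h3Q
    exact_mod_cast h3Q
  · intro ℓ hℓ hℓN
    refine ⟨μ' (CuspForm.heckeAlgebra.T hℓ hℓN (Set.notMem_empty ℓ)), ?_, ?_⟩
    · show μ (CuspForm.heckeAlgebra.T hℓ hℓN (Set.notMem_empty ℓ)) = B ℓ
      rw [hBp ℓ hℓ]
      simp only [lam, dif_pos hℓ, dif_neg hℓN]
    · have hTJ : CuspForm.heckeAlgebra.T hℓ hℓN (Set.notMem_empty ℓ) -
          ((a ℓ : ℤ) : CuspForm.heckeAlgebra N 2 (∅ : Set ℕ)) ∈ J := by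
        intro n
        have hdec : ((CuspForm.heckeAlgebra.T hℓ hℓN (Set.notMem_empty ℓ) -
            ((a ℓ : ℤ) : CuspForm.heckeAlgebra N 2 (∅ : Set ℕ)) :
              CuspForm.heckeAlgebra N 2 (∅ : Set ℕ)) :
            Module.End ℂ (CuspForm (Gamma0 N) 2)) f =
            CuspForm.heckeTLin 2 hℓ hℓN f + (-(a ℓ : ℂ)) • f := by
          rw [neg_smul, ← sub_eq_add_neg, ← hcast]
          rfl
        rw [hdec, qCoeff_add, qCoeff_heckeTLin, qCoeff_smul, ← haf (n * ℓ), ← haf n,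
          ← haf (n / ℓ)]
        obtain ⟨k₁, hk₁⟩ := hcong' (n * ℓ)
        obtain ⟨k₂, hk₂⟩ := hcong' n
        obtain ⟨k₃, hk₃⟩ := hcong' (n / ℓ)
        obtain ⟨j, hj⟩ := three_dvd_natCast_sub ℓ (chiNegThree ℓ) rfl
        have he : a (ℓ * n) + (if ℓ ∣ N then 0 else (chiNegThree ℓ : ℤ)) *
            (if ℓ ∣ n then a (n / ℓ) else 0) = a ℓ * a n := heig.2 ℓ hℓ n
        rw [if_neg hℓN, mul_comm ℓ n] at he
        by_cases hd : ℓ ∣ n
        · rw [if_pos hd] at he ⊢
          refine ⟨k₁ + j * af (n / ℓ) + chiNegThree ℓ * k₃ - a ℓ * k₂, ?_⟩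
          have hZ : af (n * ℓ) + (ℓ : ℤ) * af (n / ℓ) + -(a ℓ) * af n =
              3 * (k₁ + j * af (n / ℓ) + chiNegThree ℓ * k₃ - a ℓ * k₂) := by
            linear_combination hk₁ + af (n / ℓ) * hj + chiNegThree ℓ * hk₃ - a ℓ * hk₂ + he
          exact_mod_cast hZ
        · rw [if_neg hd] at he ⊢
          refine ⟨k₁ - a ℓ * k₂, ?_⟩
          have hZ : af (n * ℓ) + 0 + -(a ℓ) * af n = 3 * (k₁ - a ℓ * k₂) := by
            linear_combination hk₁ - a ℓ * hk₂ + he
          exact_mod_cast hZ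
      have h2 := hQmem _ hTJ
      rwa [map_sub, map_intCast] at h2

end Fermat.Agent.S49
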