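-- Statement S51: for a semistable integral Weierstrass curve, at least one of the mod-3 and
-- mod-5 representations is irreducible.  Proof: a rational point of X_0(15) from the two
-- stable lines (Tors3, Tors5), the rational points of X_0(15) (Modular, Descent), and the
-- non-semistability at 5 of the four resulting j-invariants (Semistable).
import Fermat.Statements.S51
import Fermat.Agent.S51Lib.Tors3
import Fermat.Agent.S51Lib.Tors5
import Fermat.Agent.S51Lib.Modular
import Fermat.Agent.S51Lib.Semistable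

set_option autoImplicit false
open WeierstrassCurve WeierstrassCurve.Affine WeierstrassCurve.Affine.Point
open CuspForm ModularFormClass UpperHalfPlane
open WeierstrassCurve

namespace Fermat.Agent.S51

theorem result (W : WeierstrassCurve ℤ) (hΔ : W.Δ ≠ 0) (hW : W.IsSemistableModel) : W.ModRepIsIrreducible 3 ∨ W.ModRepIsIrreducible 5 := by
  by_contra hcon
  rw [not_or] at hcon
  obtain ⟨h3, h5⟩ := hcon
  obtain ⟨k, hk0, hk⟩ := Fermat.Agent.S51Lib.Tors3.exists_k W hΔ h3
  obtain ⟨w, hw0, hw⟩ := Fermat.Agent.S51Lib.Tors5.exists_w W hΔ h5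
  have hΔq : (W.Δ : ℚ) ≠ 0 := by exact_mod_cast hΔ
  have hkw : (k + 27) * (k + 3) ^ 3 * w = (w ^ 2 + 10 * w + 5) ^ 3 * k := by
    apply mul_left_cancel₀ hΔq
    linear_combination w * (-hk) + k * hw
  have hwl := Fermat.Agent.S51Lib.Modular.w_mem k w hk0 hw0 hkw
  obtain ⟨h5Δ, h5c⟩ := Fermat.Agent.S51Lib.Semistable.five_dvd W.c₄ W.Δ w hwl hw
  exact hW 5 (by norm_num) (by exact_mod_cast h5Δ) (by exact_mod_cast h5c)

end Fermat.Agent.S51
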