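-- Statement S53: existence of the universal deformation ring (Mazur).
-- Proof: rigidified matrix lifts (Canonical), abstract pro-representability (Abstract),
-- and the boundary/glue theorems (Univ, Glue).
import Fermat.Statements.S53
import Fermat.Agent.S53Lib.Inst
import Fermat.Agent.S53Lib.Abstract
import Fermat.Agent.S53Lib.Glue

set_option autoImplicit false
set_option autoImplicit false
open GaloisRep

namespace Fermat.Agent.S53

theorem result
    (𝒪 : Type) [CommRing 𝒪] [IsDomain 𝒪] [IsDiscreteValuationRing 𝒪]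
    [IsAdicComplete (IsLocalRing.maximalIdeal 𝒪) 𝒪] [Finite (IsLocalRing.ResidueField 𝒪)]
    (ρbar : ResidualGaloisRep (IsLocalRing.ResidueField 𝒪))
    (𝒟 : ∀ ⦃A : Type⦄ [CommRing A] [IsLocalRing A] [Algebra 𝒪 A], GaloisRepAdic A → Prop)
    (habs : ρbar.IsAbsolutelyIrreducible)
    (h𝒟 : GaloisRep.IsDeformationCondition 𝒪 𝒟)
    (hbar : 𝒟 (GaloisRepAdic.ofResidualGaloisRep ρbar))
    (hfin : GaloisRep.TangentFinite 𝒪 ρbar 𝒟) :
    Nonempty (GaloisRep.DeformationRingData 𝒪 ρbar 𝒟) := by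
  obtain ⟨F⟩ := Fermat.Agent.S53Lib.exists_frame (𝒪 := 𝒪) ρbar habs
  obtain ⟨P⟩ := Fermat.Agent.S53Lib.Abs.nonempty_proRep 𝒪
    (Fermat.Agent.S53Lib.rigidFunctor_famL F h𝒟 hbar hfin)
  exact Fermat.Agent.S53Lib.nonempty_deformationRingData_of_proRep 𝒪 ρbar 𝒟 habs h𝒟 F
    (Fermat.Agent.S53Lib.famL F 𝒟) (fun _ _ _ _ _ => Iff.rfl) P

end Fermat.Agent.S53
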