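import Fermat.Statements.S57
import Fermat.Agent.S57Lib.Core

set_option autoImplicit false
open Algebra Algebra.PatchingLevel

namespace Fermat.Agent.S57

theorem result
    {𝒪 : Type} [CommRing 𝒪] [IsDomain 𝒪] [IsDiscreteValuationRing 𝒪]
    {r : ℕ} {R : Type} [CommRing R] [Algebra 𝒪 R]
    {M : Type} [AddCommGroup M] [Module R M] [Nontrivial M]
    (L : Algebra.PatchingLevel 𝒪 r R M ⊥) :
    Module.Free R M ∧ Module.annihilator R M = ⊥ ∧
      RingHom.ker L.ψ = Ideal.span (Set.range fun i : Fin r => L.φ (MvPowerSeries.X i)) := by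
  -- `N` is nontrivial
  have hN : Nontrivial L.N := by
    obtain ⟨m, hm⟩ := exists_ne (0 : M)
    obtain ⟨x, rfl⟩ := L.π_surjective m
    exact ⟨x, 0, fun h => hm (by rw [h, map_zero])⟩
  -- `N` is free over the power series ring
  have hfree : Module.Free (MvPowerSeries (Fin r) 𝒪) L.N :=
    Fermat.Agent.S57Lib.free_of_semilinear_basis L.φ L.b L.b_span
      (fun c => by simpa using L.b_rel c)
  set I : Ideal (MvPowerSeries (Fin r) 𝒪) :=
    Ideal.span (Set.range fun i : Fin r => L.φ (MvPowerSeries.X i)) with hIdef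
  let e : Module.Basis (Module.Free.ChooseBasisIndex (MvPowerSeries (Fin r) 𝒪) L.N)
      (MvPowerSeries (Fin r) 𝒪) L.N := Module.Free.chooseBasis (MvPowerSeries (Fin r) 𝒪) L.N
  -- coordinates of elements of `I • N` lie in `I`
  have hrepr : ∀ x ∈ (I • ⊤ : Submodule (MvPowerSeries (Fin r) 𝒪) L.N), ∀ i, e.repr x i ∈ I := by
    intro x hx i
    refine Submodule.smul_induction_on hx ?_ ?_
    · intro a ha y _
      rw [map_smul, Finsupp.smul_apply, smul_eq_mul]
      exact I.mul_mem_right _ ha
    · intro y z hy hz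
      rw [map_add, Finsupp.add_apply]
      exact I.add_mem hy hz
  have hI : I ≤ RingHom.ker (L.ψ : MvPowerSeries (Fin r) 𝒪 →+* R) := by
    rw [hIdef, Ideal.span_le]
    rintro _ ⟨i, rfl⟩
    exact L.ψ_φ_X i
  have hπsum : ∀ (s : Finset (Module.Free.ChooseBasisIndex (MvPowerSeries (Fin r) 𝒪) L.N))
      (f : Module.Free.ChooseBasisIndex (MvPowerSeries (Fin r) 𝒪) L.N → MvPowerSeries (Fin r) 𝒪),
      L.π (∑ i ∈ s, f i • e i) = ∑ i ∈ s, L.ψ (f i) • L.π (e i) := by
    intro s f
    rw [map_sum]
    exact Finset.sum_congr rfl fun i _ => L.π_smul _ _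
  have key2 : ∀ (s : Finset (Module.Free.ChooseBasisIndex (MvPowerSeries (Fin r) 𝒪) L.N))
      (f : Module.Free.ChooseBasisIndex (MvPowerSeries (Fin r) 𝒪) L.N → MvPowerSeries (Fin r) 𝒪),
      L.π (∑ i ∈ s, f i • e i) = 0 → ∀ i ∈ s, f i ∈ I := by
    classical
    intro s f h i hi
    have h1 := hrepr _ ((L.ker_π _).mp h) i
    rw [map_sum, Finsupp.finsetSum_apply] at h1
    rw [Finset.sum_eq_single i] at h1
    · simpa using h1
    · intro j _ hj
      simp [hj]
    · intro h
      exact absurd hi h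
  have hker : RingHom.ker (L.ψ : MvPowerSeries (Fin r) 𝒪 →+* R) = I := by
    refine le_antisymm ?_ hI
    intro f hf
    obtain ⟨i₀⟩ : Nonempty (Module.Free.ChooseBasisIndex (MvPowerSeries (Fin r) 𝒪) L.N) :=
      e.index_nonempty
    refine key2 {i₀} (fun _ => f) ?_ i₀ (Finset.mem_singleton_self _)
    rw [hπsum]
    have : L.ψ f = 0 := hf
    simp [this]
  -- the images of the basis vectors form a basis of `M`
  have hli : LinearIndependent R (fun i => L.π (e i)) := by
    rw [linearIndependent_iff']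
    intro s g hg i hi
    choose f hf using fun j => L.ψ_surjective (g j)
    have h1 : L.π (∑ j ∈ s, f j • e j) = 0 := by
      rw [hπsum]
      simp only [hf]
      exact hg
    have h2 := hI (key2 s f h1 i hi)
    rw [RingHom.mem_ker] at h2
    rw [← hf i]
    exact h2
  have hsp : ⊤ ≤ Submodule.span R (Set.range fun i => L.π (e i)) := by
    intro m _
    obtain ⟨x, rfl⟩ := L.π_surjective m
    rw [← e.linearCombination_repr x, Finsupp.linearCombination_apply, Finsupp.sum, hπsum]
    exact Submodule.sum_mem _ fun i _ =>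
      Submodule.smul_mem _ _ (Submodule.subset_span ⟨i, rfl⟩)
  have hfreeM : Module.Free R M := Module.Free.of_basis (Module.Basis.mk hli hsp)
  refine ⟨hfreeM, ?_, hker⟩
  exact Module.annihilator_eq_bot.mpr inferInstance

end Fermat.Agent.S57
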